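/-
TW-FLAT, row FLAT-SS-CONTAIN (339): vocabulary and the named statements of its sub-rows.
DEFINITIONS ONLY.

Setting: `P` a valuation subring of `Qb` over `p`, `I` its inertia group, `ϖ^(p²−1) = −p`,
`G_F = {σ ∈ I | σ ϖ = ϖ}` (so `F = Qb^I(ϖ)`), `c` the cocycle of a flat lift and
`H = {σ ∈ G_F | c σ = 0}`.

* `IFix P x`, `FFix P ϖ x`, `HFix P ϖ c x` : `x` is fixed by `I`, by `G_F`, by `H`.
* `Lev P ϖ j u` : `u ≡ 1 mod ϖ^j`.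
* `tw ϖ s = ϖ(1 + ϖ^s)` : the twisted uniformiser.
* sub-row LEVELS (pure local algebra in `F`): `K3`, `TwistDiff`, `Raise`.
* sub-row GROUP (Galois theory of `c|G_F`): `H90W`, `TauConj`, `HData`.
* sub-row CORE (Fontaine's twist): `TwistCore`.
`SSC/Assembly.lean` deduces `SSContain k` from these.
-/
import Mathlib
import Fermat.Agent.TW.Flat.Interfaces

set_option autoImplicit false

namespace Fermat.Agent.TW.Flat.SSC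

open Fermat.Agent.S53 Fermat.Agent.TW Fermat.Agent.Lib.FinFlat Fermat.Agent.TW.Flat

local notation "Qb" => AlgebraicClosure ℚ

variable {k : Type} [Field k]

/-- `x` is fixed by the inertia group of `P`. -/
def IFix (P : ValuationSubring Qb) (x : Qb) : Prop :=
  ∀ σ ∈ P.inertiaSubgroupIn ℚ, σ x = x

/-- `x` is fixed by `G_F = {σ ∈ I | σ ϖ = ϖ}`. -/
def FFix (P : ValuationSubring Qb) (ϖ x : Qb) : Prop :=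
  ∀ σ ∈ P.inertiaSubgroupIn ℚ, σ ϖ = ϖ → σ x = x

/-- `x` is fixed by `H = {σ ∈ G_F | c σ = 0}`. -/
def HFix (P : ValuationSubring Qb) (ϖ : Qb) (c : GQ → Mat2 k) (x : Qb) : Prop :=
  ∀ σ ∈ P.inertiaSubgroupIn ℚ, σ ϖ = ϖ → c σ = 0 → σ x = x

/-- `u ≡ 1 mod ϖ^j`. -/
def Lev (P : ValuationSubring Qb) (ϖ : Qb) (j : ℕ) (u : Qb) : Prop :=
  (u - 1) / ϖ ^ j ∈ P

/-- The twisted uniformiser `ϖ(1 + ϖ^s)`. -/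
noncomputable def tw (ϖ : Qb) (s : ℕ) : Qb := ϖ * (1 + ϖ ^ s)

/-! ### Sub-row LEVELS -/

/-- (K3) a `p`-th power of an element of `F` which is `≡ 1 mod ϖ^j`, `p ∤ j`, `j < p² + p`, is
`≡ 1 mod ϖ^(j+1)`. -/
def K3 : Prop :=
  ∀ (p : ℕ) [Fact p.Prime] (P : ValuationSubring Qb), P.LiesOverPrime p →
    ∀ ϖ : Qb, ϖ ^ (p ^ 2 - 1) = -(p : Qb) → ∀ y : Qb, FFix P ϖ y → ∀ j : ℕ, ¬ p ∣ j →
    j < p ^ 2 + p → Lev P ϖ j (y ^ p) → Lev P ϖ (j + 1) (y ^ p)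

/-- (TWIST-DIFF) `u = Σ a_i ϖ^i` with inertia-fixed integral coefficients, `u − x₀ = ϖ^m · unit`
with `x₀` inertia-fixed integral, `1 ≤ m < p² − 1`, `p ∤ m`: replacing `ϖ` by `ϖ(1 + ϖ^s)` changes
`u` by `ϖ^(m+s) · unit`. -/
def TwistDiff : Prop :=
  ∀ (p : ℕ) [Fact p.Prime] (P : ValuationSubring Qb), P.LiesOverPrime p →
    ∀ ϖ : Qb, ϖ ^ (p ^ 2 - 1) = -(p : Qb) → ∀ a : Fin (p ^ 2 - 1) → Qb,
    (∀ i, a i ∈ P ∧ IFix P (a i)) → ∀ x₀ : Qb, x₀ ∈ P → IFix P x₀ → ∀ m s : ℕ, 1 ≤ m →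
    m < p ^ 2 - 1 → ¬ p ∣ m → 1 ≤ s →
    IsPUnit P ((∑ i, a i * ϖ ^ (i : ℕ) - x₀) / ϖ ^ m) →
    IsPUnit P ((∑ i, a i * tw ϖ s ^ (i : ℕ) - ∑ i, a i * ϖ ^ (i : ℕ)) / ϖ ^ (m + s))

/-- (RAISE) an element `u` of `F` of level `p·i` (`i ≤ p`; a unit if `i = 0`) can be multiplied by
the `p`-th power of a unit of `F` to reach level `p·i + 1`. -/
def Raise : Prop :=
  ∀ (p : ℕ) [Fact p.Prime] (P : ValuationSubring Qb), P.LiesOverPrime p →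
    ∀ ϖ : Qb, ϖ ^ (p ^ 2 - 1) = -(p : Qb) → ∀ (u : Qb) (i : ℕ), FFix P ϖ u → i ≤ p →
    Lev P ϖ (p * i) u → (i = 0 → IsPUnit P u) →
    ∃ y : Qb, IsPUnit P y ∧ FFix P ϖ y ∧ Lev P ϖ (p * i + 1) (u * y ^ p)

/-! ### Sub-row GROUP -/

/-- (H90) every character `σ ↦ ψ (c σ)` of `G_F` has a Kummer witness. -/
def H90W (k : Type) [Field k] : Prop :=
  ∀ (rb : GQ →* Mat2 k) (p : ℕ) [Fact p.Prime], p ≠ 2 → ResidualHyp rb p →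
    ∀ P : ValuationSubring Qb, P.LiesOverPrime p → ¬ HasLine rb P →
    ∀ c : GQ → Mat2 k, c ∈ Z1 rb 1 → ∀ ϖ : Qb, ϖ ^ (p ^ 2 - 1) = -(p : Qb) →
    ∀ ψ : AddChar (Mat2 k) Qb,
      ∃ z : Qb, z ≠ 0 ∧ ∀ σ ∈ P.inertiaSubgroupIn ℚ, σ ϖ = ϖ → σ z = ψ (c σ) * z

/-- (TAU) there is `τ ∈ I` with `τ ϖ = −ϖ` such that `τ z / z ∈ F` for every `H`-fixed `z ≠ 0`
with `z^p ∈ F`. -/
def TauConj (k : Type) [Field k] : Prop :=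
  ∀ (rb : GQ →* Mat2 k) (p : ℕ) [Fact p.Prime], p ≠ 2 → ResidualHyp rb p →
    ∀ P : ValuationSubring Qb, P.LiesOverPrime p → ¬ HasLine rb P →
    ∀ c : GQ → Mat2 k, c ∈ Z1 rb 1 → ∀ ϖ : Qb, ϖ ^ (p ^ 2 - 1) = -(p : Qb) →
      ∃ τ ∈ P.inertiaSubgroupIn ℚ, τ ϖ = -ϖ ∧
        ∀ z : Qb, z ≠ 0 → HFix P ϖ c z → FFix P ϖ (z ^ p) → FFix P ϖ (τ z / z)

/-- (H-DATA) `H = {σ ∈ G_F | c σ = 0}` is a subgroup of `G_F`, open (it contains the elements of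
`G_F` fixing a finite level) and of finite index `n` with coset representatives `τ i`; `rb` is
trivial on `G_F`, `c` is additive on `G_F`, and `G_F` fixes the `p`-th roots of unity. -/
def HData (k : Type) [Field k] : Prop :=
  ∀ (rb : GQ →* Mat2 k) (p : ℕ) [Fact p.Prime], p ≠ 2 → ResidualHyp rb p →
    ∀ P : ValuationSubring Qb, P.LiesOverPrime p → ¬ HasLine rb P →
    ∀ c : GQ → Mat2 k, c ∈ Z1 rb 1 → ∀ ϖ : Qb, ϖ ^ (p ^ 2 - 1) = -(p : Qb) →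
      (∀ σ ∈ P.inertiaSubgroupIn ℚ, σ ϖ = ϖ → rb σ = 1) ∧
      (∀ σ ∈ P.inertiaSubgroupIn ℚ, σ ϖ = ϖ → ∀ τ ∈ P.inertiaSubgroupIn ℚ, τ ϖ = ϖ →
        c (σ * τ) = c σ + c τ) ∧
      (∀ σ ∈ P.inertiaSubgroupIn ℚ, σ ϖ = ϖ → ∀ ζ : Qb, ζ ^ p = 1 → σ ζ = ζ) ∧
      ∃ (H : Subgroup GQ) (n : ℕ),
        (∀ σ, σ ∈ H ↔ σ ∈ P.inertiaSubgroupIn ℚ ∧ σ ϖ = ϖ ∧ c σ = 0) ∧ 0 < n ∧
        (∃ L : IntermediateField ℚ Qb, FiniteDimensional ℚ L ∧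
          ∀ σ ∈ P.inertiaSubgroupIn ℚ, σ ϖ = ϖ → (∀ x ∈ L, σ x = x) → σ ∈ H) ∧
        ∃ τ : Fin n → GQ, (∀ i, τ i ∈ P.inertiaSubgroupIn ℚ ∧ τ i ϖ = ϖ) ∧
          ∀ σ ∈ P.inertiaSubgroupIn ℚ, σ ϖ = ϖ → ∃! i, (τ i)⁻¹ * σ ∈ H

/-! ### Sub-row CORE -/

/-- (CORE) Fontaine's twist: if `z ∈ O_L` (`L = Qb^H`) has `z^p = Σ a_i ϖ^i ∈ O_F`, then
`Σ a_i (ϖ(1+ϖ^s))^i` is a `p`-th power in `O_L` modulo `p ϖ^s` (`s ≥ p + 2`). -/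
def TwistCore (k : Type) [Field k] : Prop :=
  ∀ (rb : GQ →* Mat2 k) (p : ℕ) [Fact p.Prime], p ≠ 2 → ResidualHyp rb p →
    ∀ P : ValuationSubring Qb, P.LiesOverPrime p → ¬ HasLine rb P →
    ∀ c : GQ → Mat2 k, c ∈ Z1 rb 1 → FlatOrder rb P c →
    ∀ ϖ : Qb, ϖ ^ (p ^ 2 - 1) = -(p : Qb) → ∀ s : ℕ, p + 2 ≤ s →
    ∀ a : Fin (p ^ 2 - 1) → Qb, (∀ i, a i ∈ P ∧ IFix P (a i)) → ∀ z : Qb, z ∈ P → HFix P ϖ c z →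
      z ^ p = ∑ i, a i * ϖ ^ (i : ℕ) →
      ∃ y : Qb, y ∈ P ∧ HFix P ϖ c y ∧
        (y ^ p - ∑ i, a i * tw ϖ s ^ (i : ℕ)) / ((p : Qb) * ϖ ^ s) ∈ P

end Fermat.Agent.TW.Flat.SSC
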