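/-
TW-FLAT, row FLAT-SS-CONTAIN: small valuation and fixed-point lemmas for the vocabulary of
`SSC/Basic.lean` (`IsPUnit`, `Lev`, `IFix`, `FFix`, `HFix`).
-/
import Mathlib
import Fermat.Agent.TW.Flat.SSC.Basic

set_option autoImplicit false

namespace Fermat.Agent.TW.Flat.SSC

open Fermat.Agent.S53 Fermat.Agent.TW Fermat.Agent.Lib.FinFlat Fermat.Agent.TW.Flat

local notation "Qb" => AlgebraicClosure ℚ

variable {k : Type} [Field k]

section Val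

variable (P : ValuationSubring Qb)

theorem isPUnit_iff {z : Qb} : IsPUnit P z ↔ P.valuation z = 1 := by
  constructor
  · rintro ⟨h0, h1, h2⟩
    have a1 : P.valuation z ≤ 1 := (P.valuation_le_one_iff z).mpr h1
    have a2 : P.valuation z⁻¹ ≤ 1 := (P.valuation_le_one_iff _).mpr h2
    rw [map_inv₀] at a2
    have hv0 : P.valuation z ≠ 0 := (Valuation.ne_zero_iff _).mpr h0
    have a3 : 1 ≤ P.valuation z := by
      have := mul_le_mul_left a2 (P.valuation z)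
      rwa [inv_mul_cancel₀ hv0, one_mul] at this
    exact le_antisymm a1 a3
  · intro h
    have h0 : z ≠ 0 := by
      intro h0
      rw [h0, map_zero] at h
      exact zero_ne_one h
    refine ⟨h0, (P.valuation_le_one_iff z).mp (le_of_eq h), (P.valuation_le_one_iff _).mp ?_⟩
    rw [map_inv₀, h, inv_one]

theorem val_pi_pow {p e : ℕ} {ϖ : Qb} (hϖ : ϖ ^ e = -(p : Qb)) :
    P.valuation ϖ ^ e = P.valuation (p : Qb) := by
  rw [← map_pow, hϖ, Valuation.map_neg]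

theorem val_p_lt_one {p : ℕ} (hP : P.LiesOverPrime p) : P.valuation (p : Qb) < 1 :=
  P.mem_nonunits_iff.mp hP

theorem val_p_pos {p : ℕ} (hp : p ≠ 0) : 0 < P.valuation (p : Qb) := by
  rw [Valuation.pos_iff]
  exact_mod_cast hp

theorem pi_ne_zero {p e : ℕ} (hp : p ≠ 0) {ϖ : Qb} (hϖ : ϖ ^ e = -(p : Qb)) : ϖ ≠ 0 := by
  intro h
  have hp' : (p : Qb) ≠ 0 := by exact_mod_cast hp
  rcases Nat.eq_zero_or_pos e with he | he
  · rw [he, pow_zero] at hϖ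
    have h2 : ((p + 1 : ℕ) : Qb) = 0 := by push_cast; rw [hϖ]; ring
    exact (Nat.cast_ne_zero (R := Qb)).mpr (Nat.succ_ne_zero p) h2
  · rw [h, zero_pow (by omega)] at hϖ
    exact hp' (neg_eq_zero.mp hϖ.symm)

theorem val_pi_pos {p e : ℕ} (hp : p ≠ 0) {ϖ : Qb} (hϖ : ϖ ^ e = -(p : Qb)) :
    0 < P.valuation ϖ := by
  rw [Valuation.pos_iff]
  exact pi_ne_zero hp hϖ

theorem val_pi_lt_one {p e : ℕ} (hP : P.LiesOverPrime p) {ϖ : Qb} (hϖ : ϖ ^ e = -(p : Qb)) :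
    P.valuation ϖ < 1 := by
  by_contra h
  rw [not_lt] at h
  have h1 : 1 ≤ P.valuation ϖ ^ e := one_le_pow₀ h
  rw [val_pi_pow P hϖ] at h1
  exact absurd (val_p_lt_one P hP) (not_lt.mpr h1)

theorem lev_iff {ϖ : Qb} (hϖ0 : ϖ ≠ 0) (j : ℕ) (u : Qb) :
    Lev P ϖ j u ↔ P.valuation (u - 1) ≤ P.valuation ϖ ^ j := by
  unfold Lev
  rw [← P.valuation_le_one_iff, map_div₀, map_pow]
  have h0 : 0 < P.valuation ϖ ^ j := pow_pos ((Valuation.pos_iff _).mpr hϖ0) j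
  rw [div_le_one₀ h0]

theorem isPUnit_div_pow_iff {ϖ : Qb} (hϖ0 : ϖ ≠ 0) (m : ℕ) (x : Qb) :
    IsPUnit P (x / ϖ ^ m) ↔ P.valuation x = P.valuation ϖ ^ m := by
  rw [isPUnit_iff, map_div₀, map_pow]
  have h0 : P.valuation ϖ ^ m ≠ 0 := pow_ne_zero _ ((Valuation.ne_zero_iff _).mpr hϖ0)
  rw [div_eq_one_iff_eq h0]

theorem isPUnit_div_zpow_iff {ϖ : Qb} (hϖ0 : ϖ ≠ 0) (m : ℤ) (x : Qb) :
    IsPUnit P (x / ϖ ^ m) ↔ P.valuation x = P.valuation ϖ ^ m := by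
  rw [isPUnit_iff, map_div₀, map_zpow₀]
  have h0 : P.valuation ϖ ^ m ≠ 0 := zpow_ne_zero _ ((Valuation.ne_zero_iff _).mpr hϖ0)
  rw [div_eq_one_iff_eq h0]

theorem mem_of_pow_mem {z : Qb} {n : ℕ} (hn : n ≠ 0) (h : z ^ n ∈ P) : z ∈ P := by
  rw [← P.valuation_le_one_iff] at h ⊢
  rw [map_pow] at h
  exact (pow_le_one_iff_of_nonneg zero_le hn).mp h

theorem inertia_le_decomp {σ : GQ} (h : σ ∈ P.inertiaSubgroupIn ℚ) :
    σ ∈ P.decompositionSubgroup ℚ := by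
  obtain ⟨x, _, rfl⟩ := Subgroup.mem_map.mp h
  exact x.2

end Val

section Fix

variable {P : ValuationSubring Qb} {ϖ : Qb}

theorem IFix.fFix {x : Qb} (h : IFix P x) : FFix P ϖ x := fun σ hσ _ => h σ hσ

theorem fFix_self : FFix P ϖ ϖ := fun _ _ h => h

theorem fFix_one : FFix P ϖ 1 := fun σ _ _ => map_one σ

theorem fFix_natCast (n : ℕ) : FFix P ϖ (n : Qb) := fun σ _ _ => map_natCast σ n

theorem FFix.mul {x y : Qb} (hx : FFix P ϖ x) (hy : FFix P ϖ y) : FFix P ϖ (x * y) :=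
  fun σ hσ h => by rw [map_mul, hx σ hσ h, hy σ hσ h]

theorem FFix.add {x y : Qb} (hx : FFix P ϖ x) (hy : FFix P ϖ y) : FFix P ϖ (x + y) :=
  fun σ hσ h => by rw [map_add, hx σ hσ h, hy σ hσ h]

theorem FFix.sub {x y : Qb} (hx : FFix P ϖ x) (hy : FFix P ϖ y) : FFix P ϖ (x - y) :=
  fun σ hσ h => by rw [map_sub, hx σ hσ h, hy σ hσ h]

theorem FFix.neg {x : Qb} (hx : FFix P ϖ x) : FFix P ϖ (-x) :=
  fun σ hσ h => by rw [map_neg, hx σ hσ h]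

theorem FFix.inv {x : Qb} (hx : FFix P ϖ x) : FFix P ϖ x⁻¹ :=
  fun σ hσ h => by rw [map_inv₀, hx σ hσ h]

theorem FFix.div {x y : Qb} (hx : FFix P ϖ x) (hy : FFix P ϖ y) : FFix P ϖ (x / y) :=
  fun σ hσ h => by rw [map_div₀, hx σ hσ h, hy σ hσ h]

theorem FFix.pow {x : Qb} (hx : FFix P ϖ x) (n : ℕ) : FFix P ϖ (x ^ n) :=
  fun σ hσ h => by rw [map_pow, hx σ hσ h]

theorem FFix.zpow {x : Qb} (hx : FFix P ϖ x) (n : ℤ) : FFix P ϖ (x ^ n) :=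
  fun σ hσ h => by rw [map_zpow₀, hx σ hσ h]

theorem FFix.sum {ι : Type*} (s : Finset ι) {f : ι → Qb} (h : ∀ i ∈ s, FFix P ϖ (f i)) :
    FFix P ϖ (∑ i ∈ s, f i) :=
  fun σ hσ hϖ => by
    rw [map_sum]
    exact Finset.sum_congr rfl fun i hi => h i hi σ hσ hϖ

theorem fFix_tw (s : ℕ) : FFix P ϖ (tw ϖ s) :=
  fFix_self.mul (fFix_one.add (fFix_self.pow s))

variable {c : GQ → Mat2 k}

theorem FFix.hFix {x : Qb} (h : FFix P ϖ x) : HFix P ϖ c x := fun σ hσ hϖ _ => h σ hσ hϖ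

theorem HFix.mul {x y : Qb} (hx : HFix P ϖ c x) (hy : HFix P ϖ c y) : HFix P ϖ c (x * y) :=
  fun σ hσ h hc => by rw [map_mul, hx σ hσ h hc, hy σ hσ h hc]

theorem HFix.div {x y : Qb} (hx : HFix P ϖ c x) (hy : HFix P ϖ c y) : HFix P ϖ c (x / y) :=
  fun σ hσ h hc => by rw [map_div₀, hx σ hσ h hc, hy σ hσ h hc]

theorem HFix.pow {x : Qb} (hx : HFix P ϖ c x) (n : ℕ) : HFix P ϖ c (x ^ n) :=
  fun σ hσ h hc => by rw [map_pow, hx σ hσ h hc]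

end Fix

end Fermat.Agent.TW.Flat.SSC
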