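/-
TW-FLAT, row FLAT-SS-CONTAIN (339): the ASSEMBLY.  `SSContain k` from the local toolkit
(`Loc.FVal`, `Loc.FStruct`, `Loc.CloseRoot`, `Loc.DecompMem`, `Loc.InertiaRes`), the level
calculus (`K3`, `TwistDiff`, `Raise`), the Galois theory of `c|G_F` (`H90W`, `TauConj`) and
Fontaine's twist (`TwistCore`).
-/
import Mathlib
import Fermat.Agent.TW.Flat.SSC.Val

set_option autoImplicit false

namespace Fermat.Agent.TW.Flat.SSC

open Fermat.Agent.S53 Fermat.Agent.TW Fermat.Agent.Lib.FinFlat Fermat.Agent.TW.Flat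

local notation "Qb" => AlgebraicClosure ℚ

variable {k : Type} [Field k]

theorem e_pos {p : ℕ} (hp : p.Prime) : 0 < p ^ 2 - 1 := by
  have h2 := hp.two_le
  have : 4 ≤ p ^ 2 := by nlinarith
  omega

theorem not_dvd_e {p : ℕ} (hp : p.Prime) : ¬ p ∣ p ^ 2 - 1 := by
  intro h
  have h2 := hp.two_le
  have h4 : 4 ≤ p ^ 2 := by nlinarith
  have h1 : p ∣ p ^ 2 := dvd_pow_self p (by norm_num)
  have h3 : p ∣ p ^ 2 - (p ^ 2 - 1) := Nat.dvd_sub h1 h
  have h5 : p ^ 2 - (p ^ 2 - 1) = 1 := by omega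
  rw [h5] at h3
  exact hp.one_lt.ne' (Nat.dvd_one.mp h3)

/-- [F-VAL] in valuation form. -/
theorem val_eq_zpow_of_fFix (hFVal : Loc.FVal) (p : ℕ) [Fact p.Prime] (P : ValuationSubring Qb)
    (hP : P.LiesOverPrime p) (ϖ : Qb) (hϖ : ϖ ^ (p ^ 2 - 1) = -(p : Qb)) {x : Qb} (hx0 : x ≠ 0)
    (hx : FFix P ϖ x) : ∃ m : ℤ, P.valuation x = P.valuation ϖ ^ m := by
  have hp := (Fact.out : p.Prime)
  obtain ⟨m, hm⟩ := hFVal p P hP (p ^ 2 - 1) (e_pos hp) (not_dvd_e hp) ϖ hϖ x hx0 hx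
  exact ⟨m, (isPUnit_div_zpow_iff P (pi_ne_zero hp.ne_zero hϖ) m x).mp hm⟩

/-- A non-unit of `F` is divisible by `ϖ`. -/
theorem val_le_pi_of_fFix (hFVal : Loc.FVal) (p : ℕ) [Fact p.Prime] (P : ValuationSubring Qb)
    (hP : P.LiesOverPrime p) (ϖ : Qb) (hϖ : ϖ ^ (p ^ 2 - 1) = -(p : Qb)) {x : Qb}
    (hx : FFix P ϖ x) (hx1 : P.valuation x < 1) : P.valuation x ≤ P.valuation ϖ := by
  have hp := (Fact.out : p.Prime)
  by_cases hx0 : x = 0
  · rw [hx0, map_zero]; exact zero_le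
  obtain ⟨m, hm⟩ := val_eq_zpow_of_fFix hFVal p P hP ϖ hϖ hx0 hx
  have hπ0 := val_pi_pos P hp.ne_zero hϖ
  have hπ1 := val_pi_lt_one P hP hϖ
  rw [hm] at hx1 ⊢
  have h1 : (0 : ℤ) < m := by
    have : P.valuation ϖ ^ m < P.valuation ϖ ^ (0 : ℤ) := by rwa [zpow_zero]
    exact (zpow_lt_zpow_iff_right_of_lt_one₀ hπ0 hπ1).mp this
  have : P.valuation ϖ ^ m ≤ P.valuation ϖ ^ (1 : ℤ) :=
    (zpow_le_zpow_iff_right_of_lt_one₀ hπ0 hπ1).mpr (by omega)
  rwa [zpow_one] at this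

theorem val_two {p : ℕ} (hp : p.Prime) (hp2 : p ≠ 2) (P : ValuationSubring Qb)
    (hP : P.LiesOverPrime p) : P.valuation (2 : Qb) = 1 := by
  have h2 : P.valuation (2 : Qb) ≤ 1 := by
    rw [P.valuation_le_one_iff]
    exact ofNat_mem P 2
  refine le_antisymm h2 (not_lt.mp fun hlt => ?_)
  obtain ⟨m, hm⟩ := hp.eq_two_or_odd'.resolve_left hp2
  have e1 : (1 : Qb) = (p : Qb) - 2 * (m : Qb) := by rw [hm]; push_cast; ring
  have h3 : P.valuation ((p : Qb) - 2 * (m : Qb)) < 1 := by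
    refine lt_of_le_of_lt (Valuation.map_sub _ _ _) (max_lt (val_p_lt_one P hP) ?_)
    rw [map_mul]
    have hm1 : P.valuation (m : Qb) ≤ 1 := by
      rw [P.valuation_le_one_iff]; exact natCast_mem P m
    calc P.valuation (2 : Qb) * P.valuation (m : Qb) ≤ P.valuation (2 : Qb) * 1 :=
          mul_le_mul_right hm1 _
      _ = P.valuation (2 : Qb) := mul_one _
      _ < 1 := hlt
  rw [← e1, map_one] at h3
  exact lt_irrefl _ h3

/-- PARITY: the exact level of a Kummer generator `z^p` (`z ∈ L`, `z^p ∈ F`) below `p² + p` is not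
an odd number prime to `p`. -/
theorem parity (hFVal : Loc.FVal) (hDec : Loc.DecompMem) (hRes : Loc.InertiaRes) (hK3 : K3)
    (p : ℕ) [Fact p.Prime] (hp2 : p ≠ 2) (P : ValuationSubring Qb) (hP : P.LiesOverPrime p)
    (ϖ : Qb) (hϖ : ϖ ^ (p ^ 2 - 1) = -(p : Qb)) (c : GQ → Mat2 k) (τ : GQ)
    (hτI : τ ∈ P.inertiaSubgroupIn ℚ) (hτϖ : τ ϖ = -ϖ)
    (hτ : ∀ z : Qb, z ≠ 0 → HFix P ϖ c z → FFix P ϖ (z ^ p) → FFix P ϖ (τ z / z))
    (z : Qb) (hz0 : z ≠ 0) (hzH : HFix P ϖ c z) (hzF : FFix P ϖ (z ^ p)) (j : ℕ) (hodd : Odd j)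
    (hpj : ¬ p ∣ j) (hj : j < p ^ 2 + p)
    (hlev : P.valuation (z ^ p - 1) ≤ P.valuation ϖ ^ j) :
    P.valuation (z ^ p - 1) ≤ P.valuation ϖ ^ (j + 1) := by
  have hp := (Fact.out : p.Prime)
  have hϖ0 : ϖ ≠ 0 := pi_ne_zero hp.ne_zero hϖ
  have hπ0 := val_pi_pos P hp.ne_zero hϖ
  have hπ1 := val_pi_lt_one P hP hϖ
  set u := z ^ p with hu
  set w := (u - 1) / ϖ ^ j with hw
  have hu0 : u ≠ 0 := pow_ne_zero _ hz0
  have hwP : P.valuation w ≤ 1 := by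
    rw [hw, map_div₀, map_pow, div_le_one₀ (pow_pos hπ0 j)]
    exact hlev
  have hwF : FFix P ϖ w := (hzF.sub fFix_one).div (fFix_self.pow j)
  have huw : u = 1 + ϖ ^ j * w := by
    rw [hw]; field_simp; ring
  have hj1 : 1 ≤ j := hodd.pos
  have hu1 : P.valuation u = 1 := by
    rw [huw]
    apply Valuation.map_one_add_of_lt
    rw [map_mul, map_pow]
    calc P.valuation ϖ ^ j * P.valuation w ≤ P.valuation ϖ ^ j * 1 := mul_le_mul_right hwP _
      _ = P.valuation ϖ ^ j := mul_one _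
      _ < 1 := pow_lt_one₀ (le_of_lt hπ0) hπ1 (by omega)
  -- the element of `F`
  have hyF : FFix P ϖ (τ z / z) := hτ z hz0 hzH hzF
  have hτu : τ u = 1 - ϖ ^ j * τ w := by
    rw [huw, map_add, map_one, map_mul, map_pow, hτϖ, hodd.neg_pow]; ring
  have hyp : (τ z / z) ^ p - 1 = -(ϖ ^ j * (τ w + w)) / u := by
    rw [div_pow, ← map_pow, ← hu, hτu]
    field_simp
    rw [huw]; ring
  have hτD : τ ∈ P.decompositionSubgroup ℚ := inertia_le_decomp P hτI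
  have hwP' : w ∈ P := (P.valuation_le_one_iff w).mp hwP
  have hτwP : P.valuation (τ w) ≤ 1 := by
    rw [P.valuation_le_one_iff]
    exact (hDec P τ hτD w).mpr hwP'
  have hsum : P.valuation (τ w + w) ≤ 1 :=
    le_trans (Valuation.map_add _ _ _) (max_le hτwP hwP)
  have hval : P.valuation ((τ z / z) ^ p - 1) = P.valuation ϖ ^ j * P.valuation (τ w + w) := by
    rw [hyp, map_div₀, Valuation.map_neg, map_mul, map_pow, hu1, div_one]
  have hlevy : Lev P ϖ j ((τ z / z) ^ p) := by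
    rw [lev_iff P hϖ0, hval]
    calc P.valuation ϖ ^ j * P.valuation (τ w + w) ≤ P.valuation ϖ ^ j * 1 :=
          mul_le_mul_right hsum _
      _ = P.valuation ϖ ^ j := mul_one _
  have hk3 := hK3 p P hP ϖ hϖ (τ z / z) hyF j hpj hj hlevy
  rw [lev_iff P hϖ0, hval, pow_succ] at hk3
  have hsum' : P.valuation (τ w + w) ≤ P.valuation ϖ := by
    have := (mul_le_mul_iff_right₀ (pow_pos hπ0 j)).mp hk3
    exact this
  have hdiff : P.valuation (τ w - w) < 1 := P.mem_nonunits_iff.mp (hRes P τ hτI w hwP')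
  have h2w : P.valuation (2 * w) < 1 := by
    have e : 2 * w = (τ w + w) - (τ w - w) := by ring
    rw [e]
    exact lt_of_le_of_lt (Valuation.map_sub _ _ _) (max_lt (lt_of_le_of_lt hsum' hπ1) hdiff)
  rw [map_mul, val_two hp hp2 P hP, one_mul] at h2w
  have hwπ := val_le_pi_of_fFix hFVal p P hP ϖ hϖ hwF h2w
  have e2 : u - 1 = ϖ ^ j * w := by rw [huw]; ring
  rw [e2, map_mul, map_pow, pow_succ]
  exact mul_le_mul_right hwπ _

/-- Root extraction after the twist: from a Kummer generator `u = z^p = Σ a_i ϖ^i` with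
`v(u − x₀) = m` (`p ∤ m`) and `v(u) = μ`, the twist produces `z₂ ∈ L` with `z₂^p ∈ F` of exact
level `m + s − μ`. -/
theorem twist_root (hClose : Loc.CloseRoot) (hTD : TwistDiff)
    (p : ℕ) [Fact p.Prime] (P : ValuationSubring Qb) (hP : P.LiesOverPrime p)
    (ϖ : Qb) (hϖ : ϖ ^ (p ^ 2 - 1) = -(p : Qb)) (c : GQ → Mat2 k)
    (hcore : ∀ s : ℕ, p + 2 ≤ s → ∀ a : Fin (p ^ 2 - 1) → Qb, (∀ i, a i ∈ P ∧ IFix P (a i)) →
      ∀ z : Qb, z ∈ P → HFix P ϖ c z → z ^ p = ∑ i, a i * ϖ ^ (i : ℕ) →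
      ∃ y : Qb, y ∈ P ∧ HFix P ϖ c y ∧
        (y ^ p - ∑ i, a i * tw ϖ s ^ (i : ℕ)) / ((p : Qb) * ϖ ^ s) ∈ P)
    (a : Fin (p ^ 2 - 1) → Qb) (ha : ∀ i, a i ∈ P ∧ IFix P (a i)) (z : Qb) (hz0 : z ≠ 0)
    (hzP : z ∈ P) (hzH : HFix P ϖ c z) (hzu : z ^ p = ∑ i, a i * ϖ ^ (i : ℕ))
    (x₀ : Qb) (hx₀P : x₀ ∈ P) (hx₀I : IFix P x₀) (m s μ : ℕ) (hm1 : 1 ≤ m) (hme : m < p ^ 2 - 1)
    (hpm : ¬ p ∣ m) (hs : μ + p + 2 ≤ s)
    (hval : P.valuation (z ^ p - x₀) = P.valuation ϖ ^ m)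
    (hμ : P.valuation (z ^ p) = P.valuation ϖ ^ μ) :
    ∃ z₂ : Qb, z₂ ≠ 0 ∧ HFix P ϖ c z₂ ∧ FFix P ϖ (z₂ ^ p) ∧
      P.valuation (z₂ ^ p - 1) = P.valuation ϖ ^ (m + s - μ) := by
  have hp := (Fact.out : p.Prime)
  have hp2 := hp.two_le
  have hϖ0 : ϖ ≠ 0 := pi_ne_zero hp.ne_zero hϖ
  have hπ0 := val_pi_pos P hp.ne_zero hϖ
  have hπ1 := val_pi_lt_one P hP hϖ
  have hπne : P.valuation ϖ ≠ 0 := ne_of_gt hπ0
  have hpval : P.valuation (p : Qb) = P.valuation ϖ ^ (p ^ 2 - 1) := (val_pi_pow P hϖ).symm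
  have hp0 : (p : Qb) ≠ 0 := by exact_mod_cast hp.ne_zero
  have he1 : (p + 1) * (p - 1) = p ^ 2 - 1 := by
    have : p ^ 2 = (p + 1) * (p - 1) + 1 := by
      obtain ⟨q, rfl⟩ : ∃ q, p = q + 1 := ⟨p - 1, by omega⟩
      simp only [Nat.add_sub_cancel]; ring
    omega
  set u := z ^ p with hu
  set ut := ∑ i, a i * tw ϖ s ^ (i : ℕ) with hut
  have huF : FFix P ϖ u := by
    rw [hzu]
    exact FFix.sum _ fun i _ => (ha i).2.fFix.mul (fFix_self.pow _)
  have hutF : FFix P ϖ ut :=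
    FFix.sum _ fun i _ => (ha i).2.fFix.mul ((fFix_tw s).pow _)
  -- the twist difference
  have hd : P.valuation (ut - u) = P.valuation ϖ ^ (m + s) := by
    have h1 := hTD p P hP ϖ hϖ a ha x₀ hx₀P hx₀I m s hm1 hme hpm (by omega)
      (by rw [← hzu]; exact (isPUnit_div_pow_iff P hϖ0 m _).mpr hval)
    rw [← hzu] at h1
    exact (isPUnit_div_pow_iff P hϖ0 (m + s) _).mp h1
  obtain ⟨y, hyP, hyH, hy⟩ := hcore s (by omega) a ha z hzP hzH hzu
  rw [← hut] at hy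
  have hyd : P.valuation (y ^ p - ut) ≤ P.valuation ϖ ^ (p ^ 2 - 1 + s) := by
    rw [← P.valuation_le_one_iff, map_div₀, map_mul, map_pow, hpval, ← pow_add,
      div_le_one₀ (pow_pos hπ0 _)] at hy
    exact hy
  have hlt1 : P.valuation ϖ ^ (m + s) < P.valuation ϖ ^ μ :=
    (pow_lt_pow_iff_right_of_lt_one₀ hπ0 hπ1).mpr (by omega)
  have hlt2 : P.valuation ϖ ^ (p ^ 2 - 1 + s) < P.valuation ϖ ^ μ :=
    (pow_lt_pow_iff_right_of_lt_one₀ hπ0 hπ1).mpr (by omega)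
  have hutv : P.valuation ut = P.valuation ϖ ^ μ := by
    have e1 : ut = u + (ut - u) := by ring
    rw [e1, Valuation.map_add_eq_of_lt_left _ (by rw [hd, hμ]; exact hlt1), hμ]
  have hypv : P.valuation (y ^ p) = P.valuation ϖ ^ μ := by
    have e1 : y ^ p = ut + (y ^ p - ut) := by ring
    rw [e1, Valuation.map_add_eq_of_lt_left _ (by rw [hutv]; exact lt_of_le_of_lt hyd hlt2), hutv]
  have hyp0 : y ^ p ≠ 0 := by
    rw [← Valuation.ne_zero_iff P.valuation, hypv]; exact pow_ne_zero _ hπne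
  have hut0 : ut ≠ 0 := by
    rw [← Valuation.ne_zero_iff P.valuation, hutv]; exact pow_ne_zero _ hπne
  have hu0 : u ≠ 0 := pow_ne_zero _ hz0
  -- the element close to 1
  set u' := ut / y ^ p with hu'
  set c' := ϖ ^ (s - μ) with hc'
  have hc'0 : c' ≠ 0 := pow_ne_zero _ hϖ0
  have hc'P : c' ∈ P := by
    rw [← P.valuation_le_one_iff, hc', map_pow]
    exact pow_le_one₀ (le_of_lt hπ0) (le_of_lt hπ1)
  have hu'v : P.valuation (u' - 1) ≤ P.valuation ϖ ^ (p ^ 2 - 1) * P.valuation ϖ ^ (s - μ) := by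
    have e1 : u' - 1 = -(y ^ p - ut) / y ^ p := by
      rw [hu']; field_simp; ring
    rw [e1, map_div₀, Valuation.map_neg, hypv, div_le_iff₀ (pow_pos hπ0 _), ← pow_add, ← pow_add]
    have e2 : p ^ 2 - 1 + (s - μ) + μ = p ^ 2 - 1 + s := by omega
    rw [e2]
    exact hyd
  have hroot : ∃ r : Qb, r ^ p = u' := IsAlgClosed.exists_pow_nat_eq u' hp.pos
  obtain ⟨r, hr⟩ := hroot
  obtain ⟨ζ, hζ, -, hfix⟩ := hClose p P hP c' u' r hc'P
    ⟨c' ^ (p - 1) / p, by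
      rw [P.mem_nonunits_iff, map_div₀, map_pow, hc', map_pow, hpval, ← pow_mul,
        div_lt_one₀ (pow_pos hπ0 _)]
      apply (pow_lt_pow_iff_right_of_lt_one₀ hπ0 hπ1).mpr
      rw [← he1]
      have h1 : (p + 2) * (p - 1) ≤ (s - μ) * (p - 1) := Nat.mul_le_mul_right _ (by omega)
      have h2 : (p + 1) * (p - 1) < (p + 2) * (p - 1) :=
        Nat.mul_lt_mul_of_pos_right (by omega) (by omega)
      omega, by field_simp⟩
    ⟨(u' - 1) / (p * c'), by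
      rw [← P.valuation_le_one_iff, map_div₀, map_mul, hpval, hc', map_pow,
        div_le_one₀ (mul_pos (pow_pos hπ0 _) (pow_pos hπ0 _))]
      exact hu'v, by field_simp⟩ hr
  -- the root of the twisted element
  set w := y * (ζ * r) with hw
  have hwp : w ^ p = ut := by
    rw [hw, mul_pow, mul_pow, hζ, hr, one_mul, hu', mul_div_cancel₀ _ hyp0]
  have hw0 : w ≠ 0 := by
    intro h0
    rw [h0, zero_pow hp.ne_zero] at hwp
    exact hut0 hwp.symm
  have hwH : HFix P ϖ c w := by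
    intro σ hσ hσϖ hσc
    rw [hw, map_mul, hyH σ hσ hσϖ hσc]
    congr 1
    apply hfix σ (inertia_le_decomp P hσ)
    rw [hu', map_div₀, hutF σ hσ hσϖ, map_pow, hyH σ hσ hσϖ hσc]
  refine ⟨w / z, div_ne_zero hw0 hz0, hwH.div hzH, ?_, ?_⟩
  · rw [div_pow, hwp]
    exact hutF.div huF
  · rw [div_pow, hwp]
    have e1 : ut / z ^ p - 1 = (ut - u) / u := by
      rw [← hu]; field_simp
    rw [e1, map_div₀, hd, hμ]
    rw [div_eq_iff (pow_ne_zero _ hπne), ← pow_add]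
    congr 1
    omega

/-- **FLAT-SS-CONTAIN, assembled**: the cocycle of a flat lift has Kummer level `≥ p² − 2` in the
irreducible case. -/
theorem ssContain_of (hFVal : Loc.FVal) (hFStruct : Loc.FStruct) (hClose : Loc.CloseRoot)
    (hDec : Loc.DecompMem) (hRes : Loc.InertiaRes) (hK3 : K3) (hTD : TwistDiff) (hRaise : Raise)
    (hH90 : H90W k) (hTau : TauConj k) (hCore : TwistCore k) : SSContain k := by
  intro rb p _ hp2 h P hP hnl c hc hflat ϖ hϖ ψ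
  have hp := (Fact.out : p.Prime)
  have hp3 : 3 ≤ p := by
    have := hp.two_le
    omega
  have hpp : 3 * p ≤ p ^ 2 := by nlinarith
  have hϖ0 : ϖ ≠ 0 := pi_ne_zero hp.ne_zero hϖ
  have hπ0 := val_pi_pos P hp.ne_zero hϖ
  have hπ1 := val_pi_lt_one P hP hϖ
  have hπne : P.valuation ϖ ≠ 0 := ne_of_gt hπ0
  obtain ⟨z₀, hz₀, hz₀W⟩ := hH90 rb p hp2 h P hP hnl c hc ϖ hϖ ψ
  obtain ⟨τ, hτI, hτϖ, hτ⟩ := hTau rb p hp2 h P hP hnl c hc ϖ hϖ
  have hcore := hCore rb p hp2 h P hP hnl c hc hflat ϖ hϖ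
  -- Kummer witnesses
  let W : Qb → Prop := fun z => z ≠ 0 ∧ ∀ σ ∈ P.inertiaSubgroupIn ℚ, σ ϖ = ϖ → σ z = ψ (c σ) * z
  have hWH : ∀ z, W z → HFix P ϖ c z := by
    intro z hz σ hσ hσϖ hσc
    rw [hz.2 σ hσ hσϖ, hσc, AddChar.map_zero_eq_one, one_mul]
  have hpc : ∀ X : Mat2 k, p • X = 0 := by
    intro X
    rw [← Nat.cast_smul_eq_nsmul k p X, h.charP, zero_smul]
  have hWF : ∀ z, W z → FFix P ϖ (z ^ p) := by
    intro z hz σ hσ hσϖ
    rw [map_pow, hz.2 σ hσ hσϖ, mul_pow, ← AddChar.map_nsmul_eq_pow, hpc,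
      AddChar.map_zero_eq_one, one_mul]
  have hWmul : ∀ z y, W z → y ≠ 0 → FFix P ϖ y → W (z * y) := by
    intro z y hz hy0 hy
    refine ⟨mul_ne_zero hz.1 hy0, fun σ hσ hσϖ => ?_⟩
    rw [map_mul, hz.2 σ hσ hσϖ, hy σ hσ hσϖ, mul_assoc]
  have hFS : ∀ x : Qb, x ∈ P → FFix P ϖ x →
      ∃ a : Fin (p ^ 2 - 1) → Qb, (∀ i, a i ∈ P ∧ IFix P (a i)) ∧ x = ∑ i, a i * ϖ ^ (i : ℕ) :=
    fun x hxP hxF => hFStruct p P hP (p ^ 2 - 1) (e_pos hp) (not_dvd_e hp) ϖ hϖ x hxP hxF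
  have hpar : ∀ z : Qb, z ≠ 0 → HFix P ϖ c z → FFix P ϖ (z ^ p) → ∀ j : ℕ, Odd j → ¬ p ∣ j →
      j < p ^ 2 + p → P.valuation (z ^ p - 1) ≤ P.valuation ϖ ^ j →
      P.valuation (z ^ p - 1) ≤ P.valuation ϖ ^ (j + 1) :=
    fun z hz0 hzH hzF j hodd hpj hj hlev =>
      parity hFVal hDec hRes hK3 p hp2 P hP ϖ hϖ c τ hτI hτϖ hτ z hz0 hzH hzF j hodd hpj hj hlev
  have hnotle : ∀ n : ℕ, ¬ P.valuation ϖ ^ n ≤ P.valuation ϖ ^ (n + 1) := by
    intro n hle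
    have := (pow_le_pow_iff_right_of_lt_one₀ hπ0 hπ1).mp hle
    omega
  -- Step 1: the valuation of `z₀^p` is divisible by `p`
  have hW0 : W z₀ := ⟨hz₀, hz₀W⟩
  obtain ⟨M, hM⟩ := val_eq_zpow_of_fFix hFVal p P hP ϖ hϖ (pow_ne_zero p hz₀) (hWF z₀ hW0)
  have hnorm : ∀ q : ℤ, W (z₀ * (ϖ ^ q)⁻¹) ∧
      P.valuation ((z₀ * (ϖ ^ q)⁻¹) ^ p) = P.valuation ϖ ^ (M - p * q) := by
    intro q
    refine ⟨hWmul z₀ _ hW0 (inv_ne_zero (zpow_ne_zero _ hϖ0)) (fFix_self.zpow q).inv, ?_⟩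
    rw [mul_pow, map_mul, hM, inv_pow, map_inv₀, ← zpow_natCast (ϖ ^ q) p, ← zpow_mul,
      map_zpow₀, ← zpow_neg, ← zpow_add₀ hπne]
    congr 1
    ring
  have hdvd : (p : ℤ) ∣ M := by
    by_contra hnd
    have hmod1 : 0 < M % p := by
      have h0 : 0 ≤ M % p := Int.emod_nonneg _ (by exact_mod_cast hp.ne_zero)
      have h1 : M % p ≠ 0 := fun h => hnd (Int.dvd_of_emod_eq_zero h)
      omega
    have hmod2 : M % p < p := Int.emod_lt_of_pos _ (by exact_mod_cast hp.pos)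
    obtain ⟨hW1, hv1⟩ := hnorm (M / p)
    set z₁ := z₀ * (ϖ ^ (M / p))⁻¹ with hz₁
    obtain ⟨mn, hmn⟩ : ∃ mn : ℕ, (mn : ℤ) = M % p := ⟨(M % p).toNat, Int.toNat_of_nonneg hmod1.le⟩
    have hexp : M - p * (M / p) = (mn : ℤ) := by
      rw [hmn]; linarith [Int.emod_add_mul_ediv M p]
    rw [hexp, zpow_natCast] at hv1
    have hmn1 : 1 ≤ mn := by omega
    have hmnp : mn < p := by omega
    have hz₁P : z₁ ∈ P := by
      apply mem_of_pow_mem P hp.ne_zero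
      rw [← P.valuation_le_one_iff, hv1]
      exact pow_le_one₀ hπ0.le hπ1.le
    obtain ⟨a, ha, hau⟩ := hFS (z₁ ^ p) ((P.valuation_le_one_iff _).mp (by
      rw [hv1]; exact pow_le_one₀ hπ0.le hπ1.le)) (hWF z₁ hW1)
    obtain ⟨z₂, hz₂0, hz₂H, hz₂F, hz₂v⟩ := twist_root hClose hTD p P hP ϖ hϖ c hcore a ha z₁ hW1.1
      hz₁P (hWH z₁ hW1) hau 0 P.zero_mem (fun σ _ => map_zero σ) mn (2 * p + 1) mn hmn1
      (by omega) (fun hd => by have := Nat.le_of_dvd (by omega) hd; omega) (by omega)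
      (by rw [sub_zero]; exact hv1) hv1
    have e1 : mn + (2 * p + 1) - mn = 2 * p + 1 := by omega
    rw [e1] at hz₂v
    have := hpar z₂ hz₂0 hz₂H hz₂F (2 * p + 1) ⟨p, rfl⟩
      (fun hd => by
        have h1 : p ∣ 1 := (Nat.dvd_add_right (Dvd.intro_left 2 rfl)).mp hd
        exact hp.one_lt.ne' (Nat.dvd_one.mp h1))
      (by omega) (le_of_eq hz₂v)
    rw [hz₂v] at this
    exact hnotle _ this
  obtain ⟨q, hq⟩ := hdvd
  obtain ⟨hW1, hv1⟩ := hnorm q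
  set z₁ := z₀ * (ϖ ^ q)⁻¹ with hz₁
  rw [hq, sub_self, zpow_zero] at hv1
  -- Step 2: climb the levels
  have hclimb : ∀ j : ℕ, 1 ≤ j → j ≤ p ^ 2 - 2 → ∃ z : Qb, W z ∧ Lev P ϖ j (z ^ p) := by
    intro j hj1
    induction j, hj1 using Nat.le_induction with
    | base =>
      intro _
      obtain ⟨y, hyU, hyF, hyL⟩ := hRaise p P hP ϖ hϖ (z₁ ^ p) 0 (hWF z₁ hW1) (Nat.zero_le _)
        (by
          rw [lev_iff P hϖ0, mul_zero, pow_zero]
          refine le_trans (Valuation.map_sub _ _ _) (max_le (le_of_eq hv1) ?_)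
          rw [map_one])
        (fun _ => (isPUnit_iff P).mpr hv1)
      refine ⟨z₁ * y, hWmul z₁ y hW1 hyU.1 hyF, ?_⟩
      rw [mul_pow]
      simpa using hyL
    | succ j hj1 ih =>
      intro hj2
      obtain ⟨z, hzW, hzL⟩ := ih (by omega)
      by_cases hpj : p ∣ j
      · obtain ⟨i, rfl⟩ := hpj
        have hi0 : i ≠ 0 := by
          rintro rfl
          simp at hj1
        have hip : i ≤ p := by
          by_contra hlt
          have h1 : p * (p + 1) ≤ p * i := Nat.mul_le_mul_left _ (by omega)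
          have h2 : p * (p + 1) = p ^ 2 + p := by ring
          omega
        obtain ⟨y, hyU, hyF, hyL⟩ := hRaise p P hP ϖ hϖ (z ^ p) i (hWF z hzW) hip hzL
          (fun h0 => absurd h0 hi0)
        refine ⟨z * y, hWmul z y hzW hyU.1 hyF, ?_⟩
        rw [mul_pow]
        exact hyL
      · refine ⟨z, hzW, ?_⟩
        by_contra hnot
        rw [lev_iff P hϖ0] at hzL hnot
        have hne : z ^ p - 1 ≠ 0 := by
          intro h0
          rw [h0, map_zero] at hnot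
          exact hnot zero_le
        obtain ⟨n, hn⟩ := val_eq_zpow_of_fFix hFVal p P hP ϖ hϖ hne ((hWF z hzW).sub fFix_one)
        have hnj : n = (j : ℤ) := by
          rw [hn, ← zpow_natCast] at hzL hnot
          have h1 := (zpow_le_zpow_iff_right_of_lt_one₀ hπ0 hπ1).mp hzL
          have h2 : ¬ ((j + 1 : ℕ) : ℤ) ≤ n := fun hle =>
            hnot ((zpow_le_zpow_iff_right_of_lt_one₀ hπ0 hπ1).mpr hle)
          push_cast at h2
          omega
        rw [hnj, zpow_natCast] at hn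
        have hzv : P.valuation (z ^ p) = 1 := by
          have e1 : z ^ p = 1 + (z ^ p - 1) := by ring
          rw [e1]
          apply Valuation.map_one_add_of_lt
          rw [hn]
          exact pow_lt_one₀ hπ0.le hπ1 (by omega)
        have hzP : z ∈ P := mem_of_pow_mem P hp.ne_zero
          ((P.valuation_le_one_iff _).mp (le_of_eq hzv))
        obtain ⟨a, ha, hau⟩ := hFS (z ^ p) ((P.valuation_le_one_iff _).mp (le_of_eq hzv))
          (hWF z hzW)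
        obtain ⟨z₂, hz₂0, hz₂H, hz₂F, hz₂v⟩ := twist_root hClose hTD p P hP ϖ hϖ c hcore a ha z
          hzW.1 hzP (hWH z hzW) hau 1 P.one_mem (fun σ _ => map_one σ) j (p ^ 2 + p - 1 - j) 0
          hj1 (by omega) hpj (by omega) hn (by rw [pow_zero]; exact hzv)
        have e1 : j + (p ^ 2 + p - 1 - j) - 0 = p ^ 2 + p - 1 := by omega
        rw [e1] at hz₂v
        have hodd : Odd (p ^ 2 + p - 1) := by
          have heven : Even (p ^ 2 + p) := by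
            have : p ^ 2 + p = p * (p + 1) := by ring
            rw [this]
            exact Nat.even_mul_succ_self p
          obtain ⟨r, hr⟩ := heven
          exact ⟨r - 1, by omega⟩
        have := hpar z₂ hz₂0 hz₂H hz₂F (p ^ 2 + p - 1) hodd
          (fun hd => by
            have h1 : p ∣ p ^ 2 + p := Dvd.dvd.add (dvd_pow_self p (by norm_num)) dvd_rfl
            have h2 : p ∣ p ^ 2 + p - (p ^ 2 + p - 1) := Nat.dvd_sub h1 hd
            have h3 : p ^ 2 + p - (p ^ 2 + p - 1) = 1 := by omega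
            rw [h3] at h2
            exact hp.one_lt.ne' (Nat.dvd_one.mp h2))
          (by omega) (le_of_eq hz₂v)
        rw [hz₂v] at this
        have e2 : p ^ 2 + p - 1 + 1 = (p ^ 2 + p - 1) + 1 := rfl
        exact hnotle _ this
  obtain ⟨z, hzW, hzL⟩ := hclimb (p ^ 2 - 2) (by omega) le_rfl
  refine ⟨z, hzW.1, ?_, hzL, fun σ hσI hσϖ => ?_⟩
  · have h1 : P.valuation (z ^ p - 1) ≤ 1 := by
      rw [lev_iff P hϖ0] at hzL
      exact le_trans hzL (pow_le_one₀ hπ0.le hπ1.le)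
    have e1 : z ^ p = (z ^ p - 1) + 1 := by ring
    rw [e1]
    exact P.add_mem _ _ ((P.valuation_le_one_iff _).mp h1) P.one_mem
  · rw [resOn_apply]
    exact hzW.2 σ hσI hσϖ

end Fermat.Agent.TW.Flat.SSC
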