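/-
TW-FLAT, row FLAT-SSC-GROUP (353): Galois theory of the cocycle `c` on
`G_F = {σ ∈ I | σ ϖ = ϖ}` (`ϖ^(p²−1) = −p`), from the two toolkit statements `Loc.SSStruct k`
(`rb` is trivial on `G_F`) and `Loc.TameKum` (tame Kummer theory of inertia).

* `fix_mup` : an element of inertia fixing `ϖ^(p+1)` fixes the `p`-th roots of unity;
* `hData : HData k` : `rb = 1` on `G_F`, `c` additive on `G_F`, `G_F` fixes `μ_p`, and the
  subgroup `H = {σ ∈ G_F | c σ = 0}` with its finite index and coset representatives;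
* `h90w : H90W k` : Hilbert 90 witnesses of the characters `σ ↦ ψ (c σ)` of `G_F`;
* `tauConj : TauConj k` : `τ ∈ I` with `τ ϖ = −ϖ` normalising the Kummer characters of `G_F`
  which are trivial on `H`.
-/
import Mathlib
import Fermat.Agent.TW.Flat.SSC.Basic
import Fermat.Agent.TW.Flat.Local.Tame
import Fermat.Agent.TW.Local.H90
import Fermat.Agent.ESJ.Rep.CycloMod

set_option autoImplicit false

namespace Fermat.Agent.TW.Flat.SSC.Group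

open Fermat.Agent.S53 Fermat.Agent.TW Fermat.Agent.Lib.FinFlat Fermat.Agent.TW.Flat

local notation "Qb" => AlgebraicClosure ℚ

attribute [local instance] Fermat.Agent.Lib.GalQbar.isAlgClosure_rat
  Fermat.Agent.Lib.GalQbar.isGalois_rat Fermat.Agent.Lib.GalQbar.isAlgebraic_rat
  Fermat.Agent.Lib.GalQbar.normal_rat

/-! ### The group `G_F` -/

/-- `G_F = {σ ∈ I | σ ϖ = ϖ}` as a subgroup of `GQ`. -/
def gF (P : ValuationSubring Qb) (ϖ : Qb) : Subgroup GQ where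
  carrier := {σ | σ ∈ P.inertiaSubgroupIn ℚ ∧ σ ϖ = ϖ}
  mul_mem' := by
    rintro σ τ ⟨hσ, hσ'⟩ ⟨hτ, hτ'⟩
    exact ⟨mul_mem hσ hτ, by rw [AlgEquiv.mul_apply, hτ', hσ']⟩
  one_mem' := ⟨one_mem _, rfl⟩
  inv_mem' := by
    rintro σ ⟨hσ, hσ'⟩
    refine ⟨inv_mem hσ, ?_⟩
    calc σ⁻¹ ϖ = σ⁻¹ (σ ϖ) := by rw [hσ']
      _ = ϖ := by rw [← AlgEquiv.mul_apply, inv_mul_cancel, AlgEquiv.one_apply]

theorem mem_gF (P : ValuationSubring Qb) (ϖ : Qb) (σ : GQ) :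
    σ ∈ gF P ϖ ↔ σ ∈ P.inertiaSubgroupIn ℚ ∧ σ ϖ = ϖ := Iff.rfl

theorem inv_apply_apply (σ : GQ) (x : Qb) : σ⁻¹ (σ x) = x := by
  rw [← AlgEquiv.mul_apply, inv_mul_cancel, AlgEquiv.one_apply]

theorem apply_inv_apply (σ : GQ) (x : Qb) : σ (σ⁻¹ x) = x := by
  rw [← AlgEquiv.mul_apply, mul_inv_cancel, AlgEquiv.one_apply]

/-! ### Level-constant functions have finite range -/

theorem finite_range_of_levelConst {X : Type*} {f : GQ → X} (hf : LevelConst f) :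
    (Set.range f).Finite := by
  classical
  obtain ⟨F, hF, h⟩ := hf
  have := hF
  let r : GQ → (F →ₐ[ℚ] Qb) := fun g => (g : Qb →ₐ[ℚ] Qb).comp F.val
  have hr : ∀ g g', r g = r g' → f g = f g' := by
    intro g g' hgg
    have hs : ∀ x ∈ F, (g⁻¹ * g') x = x := by
      intro x hx
      have h1 : g x = g' x := congrArg (fun φ : F →ₐ[ℚ] Qb => φ ⟨x, hx⟩) hgg
      rw [AlgEquiv.mul_apply, ← h1, inv_apply_apply]
    have h2 := h g (g⁻¹ * g') hs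
    rw [mul_inv_cancel_left] at h2
    exact h2.symm
  have hfin : Finite (F →ₐ[ℚ] Qb) := inferInstance
  refine Set.Finite.subset (Set.finite_range
    (fun φ : F →ₐ[ℚ] Qb => if h : ∃ g, r g = φ then f h.choose else f 1)) ?_
  rintro _ ⟨g, rfl⟩
  refine ⟨r g, ?_⟩
  have hex : ∃ g', r g' = r g := ⟨g, rfl⟩
  simp only [dif_pos hex]
  exact hr _ _ hex.choose_spec

/-! ### `μ_p` and the tame character -/

/-- An element of inertia fixing `ϖ^(p+1)` (a `(p−1)`-th root of `−p`) fixes the `p`-th roots of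
unity. -/
theorem fix_mup (htk : Loc.TameKum) (p : ℕ) [Fact p.Prime] (P : ValuationSubring Qb)
    (hP : P.LiesOverPrime p) (ϖ : Qb) (hϖ : ϖ ^ (p ^ 2 - 1) = -(p : Qb)) (σ : GQ)
    (hσ : σ ∈ P.inertiaSubgroupIn ℚ) (hσϖ : σ (ϖ ^ (p + 1)) = ϖ ^ (p + 1)) (ζ : Qb)
    (hζ : ζ ^ p = 1) : σ ζ = ζ := by
  have hp : p.Prime := Fact.out
  have : NeZero p := ⟨hp.ne_zero⟩
  have : Fact (1 < p) := ⟨hp.one_lt⟩
  have he : 0 < p - 1 := Nat.sub_pos_of_lt hp.one_lt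
  have hpe : ¬ p ∣ p - 1 := fun h => by
    have := Nat.le_of_dvd he h
    omega
  have hmul : (p + 1) * (p - 1) = p ^ 2 - 1 := by
    obtain ⟨m, rfl⟩ : ∃ m, p = m + 1 := ⟨p - 1, (Nat.sub_add_cancel hp.pos).symm⟩
    simp only [Nat.add_sub_cancel]
    have : (m + 1) ^ 2 = (m + 1 + 1) * m + 1 := by ring
    rw [this, Nat.add_sub_cancel]
  have hϖ1 : (ϖ ^ (p + 1)) ^ (p - 1) = -(p : Qb) := by
    rw [← pow_mul, hmul, hϖ]
  let f : ↥(P.inertiaSubgroupIn ℚ) →* (ZMod p)ˣ :=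
    (Fermat.Agent.ESJ.Rep.cycloMod p).comp (P.inertiaSubgroupIn ℚ).subtype
  have hf1 : ∀ σ, f σ ^ (p - 1) = 1 := fun σ => ZMod.units_pow_card_sub_one_eq_one p (f σ)
  obtain ⟨ζ₀, hζ₀⟩ := Fermat.Agent.ESJ.Rep.CycloMod.exists_primitiveRoot p
  have hlev : ∃ L : IntermediateField ℚ Qb, FiniteDimensional ℚ L ∧
      ∀ σ : ↥(P.inertiaSubgroupIn ℚ), (∀ x ∈ L, (σ : GQ) x = x) → f σ = 1 := by
    refine ⟨IntermediateField.adjoin ℚ {ζ₀}, ?_, fun σ hσ => ?_⟩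
    · exact IntermediateField.adjoin.finiteDimensional (Algebra.IsIntegral.isIntegral ζ₀)
    · have h1 : (σ : GQ) ζ₀ = ζ₀ ^ 1 := by
        rw [pow_one]
        exact hσ _ (IntermediateField.mem_adjoin_simple_self ℚ ζ₀)
      have h2 := Fermat.Agent.ESJ.Rep.cycloMod_eq_natCast p (σ : GQ) 1 hζ₀ h1
      apply Units.ext
      show ((Fermat.Agent.ESJ.Rep.cycloMod p (σ : GQ) : (ZMod p)ˣ) : ZMod p) = ((1 : (ZMod p)ˣ) : ZMod p)
      rw [h2, Nat.cast_one, Units.val_one]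
  have h4 : Fermat.Agent.ESJ.Rep.cycloMod p σ = 1 :=
    htk p P hP (p - 1) he hpe (ϖ ^ (p + 1)) hϖ1 f hf1 hlev ⟨σ, hσ⟩ hσϖ
  have h3 := Fermat.Agent.ESJ.Rep.cycloMod_spec p σ ζ hζ
  rw [h4, Units.val_one, ZMod.val_one, pow_one] at h3
  exact h3

/-- `G_F` fixes the `p`-th roots of unity. -/
theorem gF_fix_mup (htk : Loc.TameKum) (p : ℕ) [Fact p.Prime] (P : ValuationSubring Qb)
    (hP : P.LiesOverPrime p) (ϖ : Qb) (hϖ : ϖ ^ (p ^ 2 - 1) = -(p : Qb)) (σ : GQ)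
    (hσ : σ ∈ gF P ϖ) (ζ : Qb) (hζ : ζ ^ p = 1) : σ ζ = ζ :=
  fix_mup htk p P hP ϖ hϖ σ hσ.1 (by rw [map_pow, hσ.2]) ζ hζ

/-! ### Cocycles on elements with trivial `rb` -/

section Cocycle

variable {k : Type} [Field k] {rb : GQ →* Mat2 k} {c : GQ → Mat2 k}

theorem c_mul_of_rb_eq_one (hc : c ∈ Z1 rb 1) {σ : GQ} (hσ : rb σ = 1) (τ : GQ) :
    c (σ * τ) = c σ + c τ := by
  rw [hc.2.1 σ τ, adAct_eq_of_rb_eq_one rb 1 σ hσ rfl]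

theorem c_inv_of_rb_eq_one (hc : c ∈ Z1 rb 1) {σ : GQ} (hσ : rb σ = 1) :
    c σ⁻¹ = - c σ := by
  have h := c_mul_of_rb_eq_one hc hσ σ⁻¹
  rw [mul_inv_cancel, Z1_map_one hc] at h
  exact eq_neg_of_add_eq_zero_right h.symm

/-- `H = {σ ∈ G | c σ = 0}` for a subgroup `G` on which `rb` is trivial. -/
def kerOn (G : Subgroup GQ) (hc : c ∈ Z1 rb 1) (hG : ∀ σ ∈ G, rb σ = 1) : Subgroup GQ where
  carrier := {σ | σ ∈ G ∧ c σ = 0}
  mul_mem' := by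
    rintro σ τ ⟨hσ, hσ'⟩ ⟨hτ, hτ'⟩
    exact ⟨mul_mem hσ hτ, by rw [c_mul_of_rb_eq_one hc (hG σ hσ), hσ', hτ', add_zero]⟩
  one_mem' := ⟨one_mem _, Z1_map_one hc⟩
  inv_mem' := by
    rintro σ ⟨hσ, hσ'⟩
    exact ⟨inv_mem hσ, by rw [c_inv_of_rb_eq_one hc (hG σ hσ), hσ', neg_zero]⟩

theorem mem_kerOn (G : Subgroup GQ) (hc : c ∈ Z1 rb 1) (hG : ∀ σ ∈ G, rb σ = 1) (σ : GQ) :
    σ ∈ kerOn G hc hG ↔ σ ∈ G ∧ c σ = 0 := Iff.rfl

/-- Coset representatives of `{σ ∈ G | c σ = 0}` in `G`. -/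
theorem exists_reps (G : Subgroup GQ) (hc : c ∈ Z1 rb 1) (hG : ∀ σ ∈ G, rb σ = 1) :
    ∃ (n : ℕ) (τ : Fin n → GQ), 0 < n ∧ (∀ i, τ i ∈ G) ∧
      ∀ σ ∈ G, ∃! i, (τ i)⁻¹ * σ ∈ kerOn G hc hG := by
  classical
  have hfin : (c '' (G : Set GQ)).Finite :=
    (finite_range_of_levelConst hc.2.2).subset (Set.image_subset_range _ _)
  have : Finite ↥(c '' (G : Set GQ)) := hfin
  have : Nonempty ↥(c '' (G : Set GQ)) := ⟨⟨c 1, 1, G.one_mem, rfl⟩⟩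
  let e : Fin (Nat.card ↥(c '' (G : Set GQ))) ≃ ↥(c '' (G : Set GQ)) :=
    (Finite.equivFin _).symm
  have hτ : ∀ i, ∃ σ, σ ∈ G ∧ c σ = (e i : Mat2 k) := fun i => by
    obtain ⟨σ, hσ, h⟩ := (e i).2
    exact ⟨σ, hσ, h⟩
  choose τ hτG hτc using hτ
  refine ⟨_, τ, Nat.card_pos, hτG, fun σ hσ => ?_⟩
  have key : ∀ i, (τ i)⁻¹ * σ ∈ kerOn G hc hG ↔ (e i : Mat2 k) = c σ := by
    intro i
    rw [mem_kerOn]
    have h1 : c ((τ i)⁻¹ * σ) = - (e i : Mat2 k) + c σ := by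
      have hinv : rb (τ i)⁻¹ = 1 := hG _ (G.inv_mem (hτG i))
      rw [c_mul_of_rb_eq_one hc hinv, c_inv_of_rb_eq_one hc (hG _ (hτG i)), hτc]
    rw [h1]
    constructor
    · rintro ⟨-, h2⟩
      exact (neg_add_eq_zero.mp h2)
    · intro h2
      exact ⟨G.mul_mem (G.inv_mem (hτG i)) hσ, neg_add_eq_zero.mpr h2⟩
  refine ⟨e.symm ⟨c σ, σ, hσ, rfl⟩, (key _).mpr ?_, fun i hi => ?_⟩
  · rw [Equiv.apply_symm_apply]
  · have hi' := (key i).mp hi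
    rw [Equiv.eq_symm_apply]
    exact Subtype.ext hi'

end Cocycle

/-! ### The three statements -/

variable {k : Type} [Field k]

/-- **(H-DATA)** -/
theorem hData (hst : Loc.SSStruct k) (htk : Loc.TameKum) : HData k := by
  intro rb p _ hp2 h P hP hline c hc ϖ hϖ
  have hrb : ∀ σ ∈ gF P ϖ, rb σ = 1 := fun σ hσ =>
    hst rb p hp2 h P hP hline ϖ hϖ σ hσ.1 hσ.2
  refine ⟨fun σ hσ hσϖ => hrb σ ⟨hσ, hσϖ⟩,
    fun σ hσ hσϖ τ _ _ => c_mul_of_rb_eq_one hc (hrb σ ⟨hσ, hσϖ⟩) τ,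
    fun σ hσ hσϖ ζ hζ => gF_fix_mup htk p P hP ϖ hϖ σ ⟨hσ, hσϖ⟩ ζ hζ, ?_⟩
  obtain ⟨n, τ, hn, hτG, hτ⟩ := exists_reps (gF P ϖ) hc hrb
  refine ⟨kerOn (gF P ϖ) hc hrb, n, fun σ => ?_, hn, ?_, τ, fun i => hτG i,
    fun σ hσ hσϖ => hτ σ ⟨hσ, hσϖ⟩⟩
  · rw [mem_kerOn, mem_gF, and_assoc]
  · obtain ⟨F, hF, hlev⟩ := hc.2.2
    refine ⟨F, hF, fun σ hσ hσϖ hfix => ⟨⟨hσ, hσϖ⟩, ?_⟩⟩
    have h1 := hlev 1 σ hfix
    rw [one_mul, Z1_map_one hc] at h1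
    exact h1

/-- **(H90)** -/
theorem h90w (hst : Loc.SSStruct k) (htk : Loc.TameKum) : H90W k := by
  intro rb p _ hp2 h P hP hline c hc ϖ hϖ ψ
  have hrb : ∀ σ ∈ gF P ϖ, rb σ = 1 := fun σ hσ =>
    hst rb p hp2 h P hP hline ϖ hϖ σ hσ.1 hσ.2
  obtain ⟨F, hF, hlev⟩ := hc.2.2
  have := hF
  have hψp : ∀ X : Mat2 k, ψ X ^ p = 1 := fun X => by
    rw [← AddChar.map_nsmul_eq_pow, ← Nat.cast_smul_eq_nsmul k p X, h.charP, zero_smul,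
      AddChar.map_zero_eq_one]
  obtain ⟨b, hb, hb'⟩ := Fermat.Agent.TW.KummerH90.hilbert90 (k := ℚ) (K := Qb) F (gF P ϖ)
    (fun σ => ψ (c σ))
    (fun σ hσ τ _ => by
      show ψ (c (σ * τ)) = ψ (c σ) * σ (ψ (c τ))
      rw [c_mul_of_rb_eq_one hc (hrb σ hσ), AddChar.map_add_eq_mul,
        gF_fix_mup htk p P hP ϖ hϖ σ hσ _ (hψp _)])
    (fun g _ s _ hsF => by
      show ψ (c (g * s)) = ψ (c g)
      rw [hlev g s fun x hx => (IntermediateField.mem_fixingSubgroup_iff F s).mp hsF x hx])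
    (by
      show ψ (c 1) ≠ 0
      rw [Z1_map_one hc, AddChar.map_zero_eq_one]
      exact one_ne_zero)
  refine ⟨b, hb, fun σ hσ hσϖ => ?_⟩
  have h1 : ψ (c σ) = σ b / b := hb' σ ⟨hσ, hσϖ⟩
  rw [h1, div_mul_cancel₀ _ hb]

/-- A `2 × 2` matrix with `A² = 1` and `det A = 1` is scalar (if `2 ≠ 0`). -/
theorem scalar_of_sq_eq_one (A : Mat2 k) (h2 : (2 : k) ≠ 0) (hA : A * A = 1)
    (hdet : A.det = 1) : ∃ a : k, A = a • (1 : Mat2 k) := by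
  have hCH : A * A = A.trace • A - A.det • (1 : Mat2 k) := by
    ext i j
    fin_cases i <;> fin_cases j <;>
      simp [Matrix.mul_apply, Fin.sum_univ_two, Matrix.trace_fin_two, Matrix.det_fin_two] <;> ring
  rw [hA, hdet, one_smul] at hCH
  have h3 : A.trace • A = (2 : k) • (1 : Mat2 k) := by
    rw [two_smul]
    exact (eq_sub_iff_add_eq.mp hCH).symm
  have ht : A.trace ≠ 0 := by
    intro h0
    rw [h0, zero_smul] at h3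
    have h4 := congrFun (congrFun h3 0) 0
    simp at h4
    exact h2 h4.symm
  refine ⟨(A.trace)⁻¹ * 2, ?_⟩
  rw [← smul_smul, ← h3, smul_smul, inv_mul_cancel₀ ht, one_smul]

/-- Conjugation by a scalar matrix is trivial. -/
theorem conj_of_scalar (A B X : Mat2 k) (a : k) (hA : A = a • (1 : Mat2 k)) (hAB : A * B = 1) :
    A * X * B = X := by
  have h1 : A * X = X * A := by rw [hA, Matrix.smul_mul, Matrix.mul_smul, one_mul, mul_one]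
  rw [h1, mul_assoc, hAB, mul_one]

/-- **(TAU)** -/
theorem tauConj (hst : Loc.SSStruct k) (htk : Loc.TameKum) : TauConj k := by
  intro rb p _ hp2 h P hP hline c hc ϖ hϖ
  have hp : p.Prime := Fact.out
  have hodd : Odd p := hp.odd_of_ne_two hp2
  have hrb : ∀ σ ∈ gF P ϖ, rb σ = 1 := fun σ hσ =>
    hst rb p hp2 h P hP hline ϖ hϖ σ hσ.1 hσ.2
  have hmu : ∀ σ ∈ gF P ϖ, ∀ ζ : Qb, ζ ^ p = 1 → σ ζ = ζ := fun σ hσ ζ hζ =>
    gF_fix_mup htk p P hP ϖ hϖ σ hσ ζ hζ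
  have hsq : 4 ≤ p ^ 2 := by
    have := hp.two_le
    nlinarith
  have he : 0 < p ^ 2 - 1 := by omega
  have hpe : ¬ p ∣ p ^ 2 - 1 := by
    intro hdvd
    have h1 : p ∣ p ^ 2 := dvd_pow_self p (by norm_num)
    have h2 : p ∣ p ^ 2 - (p ^ 2 - 1) := Nat.dvd_sub h1 hdvd
    have h3 : p ^ 2 - (p ^ 2 - 1) = 1 := by omega
    rw [h3] at h2
    exact hp.one_lt.ne' (Nat.dvd_one.mp h2)
  have heven : Even (p ^ 2 - 1) := by
    have h1 : Odd (p ^ 2) := hodd.pow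
    exact Nat.Odd.sub_odd h1 odd_one
  obtain ⟨τ, hτI, hτϖ⟩ := Loc.Tame.fConj p P hP (p ^ 2 - 1) he hpe ϖ hϖ (-1) heven.neg_one_pow
  rw [neg_one_mul] at hτϖ
  refine ⟨τ, hτI, hτϖ, ?_⟩
  -- `τ` fixes `ϖ^(p+1)`, hence `μ_p`
  have hτmu : ∀ ζ : Qb, ζ ^ p = 1 → τ ζ = ζ := fun ζ hζ =>
    fix_mup htk p P hP ϖ hϖ τ hτI (by
      rw [map_pow, hτϖ, Even.neg_pow (Odd.add_one hodd)]) ζ hζ
  -- `rb τ` is scalar
  have hτ2 : τ * τ ∈ gF P ϖ := ⟨mul_mem hτI hτI, by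
    rw [AlgEquiv.mul_apply, hτϖ, map_neg, hτϖ, neg_neg]⟩
  have hA2 : rb τ * rb τ = 1 := by rw [← map_mul, hrb _ hτ2]
  have hdet : (rb τ).det = 1 := by
    have := h.detCyc τ 1 (fun μ hμ => by rw [pow_one]; exact hτmu μ hμ)
    rwa [Nat.cast_one] at this
  have h2k : (2 : k) ≠ 0 := by
    intro h0
    obtain ⟨m, hm⟩ := hodd
    have h1 : ((p : ℕ) : k) = 2 * (m : k) + 1 := by rw [hm]; push_cast; ring
    rw [h.charP, h0, zero_mul, zero_add] at h1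
    exact zero_ne_one h1
  obtain ⟨a, ha⟩ := scalar_of_sq_eq_one (rb τ) h2k hA2 hdet
  have hadτ : ∀ X : Mat2 k, adAct rb 1 τ X = X := fun X => by
    rw [adAct_apply, one_hom_apply_coe, one_smul]
    exact conj_of_scalar _ _ X a ha (rb_mul_rb_inv rb τ)
  have hadτi : ∀ X : Mat2 k, adAct rb 1 τ⁻¹ X = X := fun X => by
    have h1 := adAct_inv_adAct rb 1 τ X
    rwa [hadτ] at h1
  intro z hz hH hF σ hσ hσϖ
  have hσG : σ ∈ gF P ϖ := ⟨hσ, hσϖ⟩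
  -- the conjugate `σ' = τ⁻¹ σ τ`
  have hσ'G : τ⁻¹ * σ * τ ∈ gF P ϖ := by
    refine ⟨mul_mem (mul_mem (inv_mem hτI) hσ) hτI, ?_⟩
    rw [AlgEquiv.mul_apply, AlgEquiv.mul_apply, hτϖ, map_neg, hσϖ, ← hτϖ, inv_apply_apply]
  have hcσ' : c (τ⁻¹ * σ * τ) = c σ := by
    rw [mul_assoc, hc.2.1 τ⁻¹ (σ * τ), hadτi, c_mul_of_rb_eq_one hc (hrb σ hσG),
      Z1_map_inv hc τ, hadτi]
    abel
  -- `η = σ' σ⁻¹ ∈ H`
  have hηG : τ⁻¹ * σ * τ * σ⁻¹ ∈ gF P ϖ := mul_mem hσ'G (inv_mem hσG)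
  have hcη : c (τ⁻¹ * σ * τ * σ⁻¹) = 0 := by
    rw [c_mul_of_rb_eq_one hc (hrb _ hσ'G), hcσ', c_inv_of_rb_eq_one hc (hrb σ hσG), add_neg_cancel]
  have hηz : (τ⁻¹ * σ * τ * σ⁻¹) z = z := hH _ hηG.1 hηG.2 hcη
  -- the Kummer character
  have hσz0 : σ z ≠ 0 := (map_ne_zero σ).mpr hz
  have hχp : (σ z / z) ^ p = 1 := by
    rw [div_pow, ← map_pow, hF σ hσ hσϖ, div_self (pow_ne_zero p hz)]
  have hσz : σ z = σ z / z * z := by rw [div_mul_cancel₀ _ hz]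
  have hσ'z : (τ⁻¹ * σ * τ) z = σ z / z * z := by
    have h1 : (τ⁻¹ * σ * τ) z = (τ⁻¹ * σ * τ * σ⁻¹) (σ z) := by
      rw [AlgEquiv.mul_apply (τ⁻¹ * σ * τ) σ⁻¹, inv_apply_apply]
    rw [h1]
    conv_lhs => rw [hσz, map_mul, hmu _ hηG _ hχp, hηz]
  have hστz : σ (τ z) = σ z / z * τ z := by
    have h1 : σ (τ z) = τ ((τ⁻¹ * σ * τ) z) := by
      rw [AlgEquiv.mul_apply, AlgEquiv.mul_apply, apply_inv_apply]
    rw [h1, hσ'z, map_mul, hτmu _ hχp]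
  rw [map_div₀, hστz]
  have hχ0 : σ z / z ≠ 0 := div_ne_zero hσz0 hz
  field_simp

end Fermat.Agent.TW.Flat.SSC.Group
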