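/-
TW-FLAT, row FLAT-SS-CONTAIN (339), sub-row CORE: **Fontaine's twist**.

`TwistCore k`: for `z ∈ O_L` (`L = Qb^H`, `H = ker (c|G_F)`) with `z^p = Σ a_i ϖ^i ∈ O_F`, the
twisted element `Σ a_i (ϖ(1+ϖ^s))^i` is a `p`-th power in `O_L` modulo `p ϖ^s`.

Proof: `R₀ ≤ R₁ ≤ R₂` the integral elements fixed by `I`, `G_F`, `H`; `R₁ = R₀[ϖ]`
(`Loc.FStruct`, `Loc.FIndep`), `R₂ = R₁[Π]` (`Loc.Mono`); the abstract twist (`SSC/Twist.lean`)
gives ring homomorphisms `θ : R₁ → P/(pϖ^s)`, `η : R₂ → P/(pϖ^s)` with `θ ϖ = ϖ(1+ϖ^s)` and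
`η Π = Π'`, `Π'` a root of a monic lift `G'` of `G^θ`; Fontaine's lifting (`IsPOrder.fontaine`)
turns `η` into an additive injection `φ` of `V = k[ε]²`, fixed by the stabiliser of `Π'` in
`G_F`, so that stabiliser is contained in `H`; counting the roots of `G'` gives equality, and the
`H`-fixed lift of `η z` is the `p`-th root we want.
-/
import Mathlib
import Fermat.Agent.TW.Flat.SSC.Assembly
import Fermat.Agent.TW.Flat.SSC.Lift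
import Fermat.Agent.TW.Flat.SSC.Group
import Fermat.Agent.TW.Flat.SSC.Core.FinV
import Fermat.Agent.TW.Flat.SSC.Core.RootCount
import Fermat.Agent.TW.Flat.SSC.Core.ArchInj
import Fermat.Agent.Lib.FinFlat.Fontaine

set_option autoImplicit false

namespace Fermat.Agent.TW.Flat.SSC

open Fermat.Agent.S53 Fermat.Agent.TW Fermat.Agent.Lib.FinFlat Fermat.Agent.TW.Flat Polynomial

local notation "Qb" => AlgebraicClosure ℚ

variable {k : Type} [Field k]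

set_option maxHeartbeats 1600000 in
/-- **Fontaine's twist.** -/
theorem twistCore_of (hArch : Loc.Arch) (hDec : Loc.DecompMem) (hFStruct : Loc.FStruct)
    (hFIndep : Loc.FIndep) (hMono : Loc.Mono) (hHD : HData k) : TwistCore k := by
  classical
  intro rb p _ hp2 h P hP hnl c hc hflat ϖ hϖ s hs a ha z hzP hzH hzu
  have hp := (Fact.out : p.Prime)
  have hp2' := hp.two_le
  have he : 0 < p ^ 2 - 1 := e_pos hp
  have hpe : ¬ p ∣ p ^ 2 - 1 := not_dvd_e hp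
  have hϖ0 : ϖ ≠ 0 := pi_ne_zero hp.ne_zero hϖ
  have hπ0 := val_pi_pos P hp.ne_zero hϖ
  have hπ1 := val_pi_lt_one P hP hϖ
  have hpval : P.valuation (p : Qb) = P.valuation ϖ ^ (p ^ 2 - 1) := (val_pi_pow P hϖ).symm
  have hp0 : (p : Qb) ≠ 0 := by exact_mod_cast hp.ne_zero
  have hϖP : ϖ ∈ P := (P.valuation_le_one_iff _).mp hπ1.le
  have hpP : (p : Qb) ∈ P := natCast_mem P p
  obtain ⟨hrb1, -, -, H, n, hHmem, hn, hopen, τ, hτ, huniq⟩ :=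
    hHD rb p hp2 h P hP hnl c hc ϖ hϖ
  obtain ⟨B, hB⟩ := hflat
  obtain ⟨Pi, hPiP, hPiH, -, hspanM, hindM⟩ := hMono p P hP (p ^ 2 - 1) he hpe ϖ hϖ H
    (fun σ hσ => ⟨((hHmem σ).mp hσ).1, ((hHmem σ).mp hσ).2.1⟩) hopen n hn ⟨τ, hτ, huniq⟩
  have hHfix : ∀ x : Qb, (∀ σ ∈ H, σ x = x) ↔ HFix P ϖ c x := fun x =>
    ⟨fun hx σ hσ hσϖ hσc => hx σ ((hHmem σ).mpr ⟨hσ, hσϖ, hσc⟩),
      fun hx σ hσ => hx σ ((hHmem σ).mp hσ).1 ((hHmem σ).mp hσ).2.1 ((hHmem σ).mp hσ).2.2⟩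
  -- the three rings
  have h01 : ringI P ≤ ringF P ϖ := ringI_le_ringF P ϖ
  have h12 : ringF P ϖ ≤ ringH P ϖ c := ringF_le_ringH P ϖ c
  have h1P : ∀ x ∈ ringF P ϖ, x ∈ P := fun x hx => hx.1
  have h2P : ∀ x ∈ ringH P ϖ c, x ∈ P := fun x hx => hx.1
  let ϖ₁ : ringF P ϖ := ⟨ϖ, hϖP, fFix_self⟩
  let Pi₂ : ringH P ϖ c := ⟨Pi, hPiP, (hHfix Pi).mp hPiH⟩
  obtain ⟨hspan₁, hind₁, -⟩ := exists_monic_relation (ringI P) (ringF P ϖ) h01 ϖ₁ (p ^ 2 - 1) he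
    (fun y hy => by
      obtain ⟨a, ha, hy'⟩ := hFStruct p P hP (p ^ 2 - 1) he hpe ϖ hϖ y hy.1 hy.2
      exact ⟨a, fun i => ⟨(ha i).1, (ha i).2⟩, hy'⟩)
    (fun a ha hsum => hFIndep p P hP (p ^ 2 - 1) he hpe ϖ hϖ a (fun i => (ha i).2) hsum)
  obtain ⟨hspan₂, hind₂, G, hGmonic, hGdeg, hGPi⟩ :=
    exists_monic_relation (ringF P ϖ) (ringH P ϖ c) h12 Pi₂ n hn
    (fun y hy => by
      obtain ⟨a, ha, hy'⟩ := hspanM y hy.1 ((hHfix y).mpr hy.2)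
      exact ⟨a, fun i => ⟨(ha i).1, (ha i).2⟩, hy'⟩)
    (fun a ha hsum => hindM a (fun i => (ha i).2) hsum)
  -- the Eisenstein polynomial of `ϖ`
  let p₀ : ringI P := ⟨(p : Qb), hpP, iFix_natCast P p⟩
  let M : (ringI P)[X] := X ^ (p ^ 2 - 1) + C p₀
  have hM : M.Monic := Polynomial.monic_X_pow_add_C p₀ he.ne'
  have hMdeg : M.natDegree = p ^ 2 - 1 := Polynomial.natDegree_X_pow_add_C
  have hMeval : ∀ x : ringF P ϖ, ((M.eval₂ (Subring.inclusion h01) x : ringF P ϖ) : Qb) =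
      (x : Qb) ^ (p ^ 2 - 1) + p := by
    intro x
    rw [coe_eval₂_inclusion]
    simp [M, p₀]
  have hMϖ : M.eval₂ (Subring.inclusion h01) ϖ₁ = 0 := Subtype.ext (by
    rw [hMeval]
    show ϖ ^ (p ^ 2 - 1) + p = 0
    rw [hϖ]; ring)
  -- the modulus and the twisted uniformiser
  have hbP : ϖ ^ s ∈ P := P.pow_mem hϖP s
  let b : P := ⟨ϖ ^ s, hbP⟩
  let pP : P := ⟨(p : Qb), hpP⟩
  let d : P := pP * b
  have hd0' : (p : Qb) * ϖ ^ s ≠ 0 := mul_ne_zero hp0 (pow_ne_zero _ hϖ0)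
  have htwP : tw ϖ s ∈ P := P.mul_mem _ _ hϖP (P.add_mem _ _ P.one_mem hbP)
  let ϖ' : ringF P ϖ := ⟨tw ϖ s, htwP, fFix_tw s⟩
  have hMϖ' : inclP (ringF P ϖ) P h1P (M.eval₂ (Subring.inclusion h01) ϖ') ∈ Ideal.span {d} := by
    rw [Ideal.mem_span_singleton]
    refine ⟨⟨-(∑ j ∈ Finset.range (p ^ 2 - 1), (1 + ϖ ^ s) ^ j),
      P.neg_mem _ (P.toSubring.sum_mem fun j _ => P.pow_mem (P.add_mem _ _ P.one_mem hbP) j)⟩,
      Subtype.ext ?_⟩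
    show ((M.eval₂ (Subring.inclusion h01) ϖ' : ringF P ϖ) : Qb) =
      (p : Qb) * ϖ ^ s * -(∑ j ∈ Finset.range (p ^ 2 - 1), (1 + ϖ ^ s) ^ j)
    rw [hMeval]
    show tw ϖ s ^ (p ^ 2 - 1) + p = _
    have hg := mul_geom_sum (1 + ϖ ^ s) (p ^ 2 - 1)
    unfold tw
    rw [mul_pow, hϖ]
    linear_combination (p : Qb) * hg
  -- the twist
  obtain ⟨θ, η, G', Pi', hθ, hG'monic, hG'deg, hroot, -, hη⟩ :=
    exists_twist P (ringI P) (ringF P ϖ) (ringH P ϖ c) h01 h12 h1P ϖ₁ Pi₂ M hM hMϖ hspan₁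
      (fun f hf => hind₁ f (hMdeg ▸ hf)) G hGmonic hGPi hspan₂ (fun g hg => hind₂ g (hGdeg ▸ hg))
      d ϖ' hMϖ'
  have hlift : ∀ a : ringF P ϖ, ∃ a' : ringF P ϖ,
      Ideal.Quotient.mk (Ideal.span {d}) (inclP (ringF P ϖ) P h1P a') = θ a := by
    intro a
    obtain ⟨f, hf⟩ := hspan₁ a
    exact ⟨f.eval₂ (Subring.inclusion h01) ϖ', by rw [← hf, hθ f]⟩
  obtain ⟨lam, hlam, hlamfix⟩ := exists_lift_of_twist P (ringF P ϖ) (ringH P ϖ c) h12 h1P Pi₂ d θ η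
    Pi' hspan₂ hη hlift
  have hη1 : ∀ a₁ : ringF P ϖ, η (Subring.inclusion h12 a₁) = θ a₁ := by
    intro a₁
    have := hη (C a₁)
    rwa [Polynomial.eval₂_C, Polynomial.map_C, Polynomial.eval_C] at this
  have hθ0 : ∀ a₀ : ringI P, θ (Subring.inclusion h01 a₀) =
      Ideal.Quotient.mk _ (inclP (ringF P ϖ) P h1P (Subring.inclusion h01 a₀)) := by
    intro a₀
    have := hθ (C a₀)
    rwa [Polynomial.eval₂_C, Polynomial.eval₂_C] at this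
  have hθϖ : θ ϖ₁ = Ideal.Quotient.mk _ (inclP (ringF P ϖ) P h1P ϖ') := by
    have := hθ X
    rwa [Polynomial.eval₂_X, Polynomial.eval₂_X] at this
  have hcong : ∀ u v : P, Ideal.Quotient.mk (Ideal.span {d}) u = Ideal.Quotient.mk _ v →
      ∃ t ∈ P, (u : Qb) - v = (p : Qb) * ϖ ^ s * t := by
    intro u v huv
    obtain ⟨t, ht⟩ := Ideal.mem_span_singleton.mp (Ideal.Quotient.eq.mp huv)
    exact ⟨t, t.2, congrArg (fun x : P => (x : Qb)) ht⟩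
  -- the set-theoretic lift of `η`
  let η₀ : Qb → Qb := fun x => if hx : x ∈ ringH P ϖ c then (lam ⟨x, hx⟩ : Qb) else 0
  have hη₀ : ∀ (x : Qb) (hx : x ∈ ringH P ϖ c), η₀ x = (lam ⟨x, hx⟩ : Qb) := fun x hx => dif_pos hx
  -- hypotheses of Fontaine's lifting
  have hpinv : (p : Qb)⁻¹ ∉ P := by
    intro hmem
    have h1 : P.valuation (p : Qb)⁻¹ ≤ 1 := (P.valuation_le_one_iff _).mpr hmem
    rw [map_inv₀] at h1
    have h2 := val_p_lt_one P hP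
    have h3 : 0 < P.valuation (p : Qb) := val_p_pos P hp.ne_zero
    have h4 : 1 < (P.valuation (p : Qb))⁻¹ := (one_lt_inv₀ h3).mpr h2
    exact absurd h1 (not_le.mpr h4)
  have hexp : p ^ 2 - 1 < s * (p - 1) := by
    have h1 : (p + 2) * (p - 1) ≤ s * (p - 1) := Nat.mul_le_mul_right _ hs
    have h2 : (p + 1) * (p - 1) < (p + 2) * (p - 1) :=
      Nat.mul_lt_mul_of_pos_right (by omega) (by omega)
    have h3 : (p + 1) * (p - 1) = p ^ 2 - 1 := by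
      have : p ^ 2 = (p + 1) * (p - 1) + 1 := by
        obtain ⟨q, rfl⟩ : ∃ q, p = q + 1 := ⟨p - 1, by omega⟩
        simp only [Nat.add_sub_cancel]; ring
      omega
    omega
  have hcm : ∃ m ∈ P, m⁻¹ ∉ P ∧ (ϖ ^ s) ^ (p - 1) = (p : Qb) * m := by
    have hv : P.valuation ((ϖ ^ s) ^ (p - 1) / p) < 1 := by
      rw [map_div₀, map_pow, map_pow, hpval, ← pow_mul, div_lt_one₀ (pow_pos hπ0 _)]
      exact (pow_lt_pow_iff_right_of_lt_one₀ hπ0 hπ1).mpr hexp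
    refine ⟨(ϖ ^ s) ^ (p - 1) / p, (P.valuation_le_one_iff _).mp hv.le, fun hmem => ?_, by
      field_simp⟩
    have h1 : P.valuation ((ϖ ^ s) ^ (p - 1) / p)⁻¹ ≤ 1 := (P.valuation_le_one_iff _).mpr hmem
    rw [map_inv₀] at h1
    have h3 : 0 < P.valuation ((ϖ ^ s) ^ (p - 1) / p) := by
      rw [Valuation.pos_iff]
      exact div_ne_zero (pow_ne_zero _ (pow_ne_zero _ hϖ0)) hp0
    exact absurd h1 (not_le.mpr ((one_lt_inv₀ h3).mpr hv))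
  have : Finite (Fin 2 → DualNumber k) := finite_of_isPOrder hB
  have hBI : IsPOrder P (P.inertiaSubgroupIn ℚ) (liftAct rb c) B := hB.mono le_top
  have hS : ∀ f ∈ B, Equivar (P.inertiaSubgroupIn ℚ) (liftAct rb c) f → ∀ v, f v ∈ ringH P ϖ c := by
    intro f hf hfe v
    refine ⟨hB.integral f hf v, fun σ hσ hσϖ hσc => ?_⟩
    rw [← hfe σ hσ v, liftAct_of_eq_one (hrb1 σ hσ hσϖ) hσc]
  have hηP : ∀ x ∈ ringH P ϖ c, η₀ x ∈ P := fun x hx => by rw [hη₀ x hx]; exact (lam _).2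
  have hη1' : ∃ t ∈ P, η₀ 1 - 1 = (p : Qb) * ϖ ^ s * t := by
    rw [hη₀ 1 (ringH P ϖ c).one_mem]
    exact hcong (lam ⟨1, (ringH P ϖ c).one_mem⟩) 1 (by
      rw [← hlam]
      exact (map_one η).trans (map_one _).symm)
  have hηadd : ∀ x ∈ ringH P ϖ c, ∀ y ∈ ringH P ϖ c,
      ∃ t ∈ P, η₀ (x + y) - (η₀ x + η₀ y) = (p : Qb) * ϖ ^ s * t := by
    intro x hx y hy
    rw [hη₀ x hx, hη₀ y hy, hη₀ (x + y) ((ringH P ϖ c).add_mem hx hy)]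
    exact hcong (lam ⟨x + y, (ringH P ϖ c).add_mem hx hy⟩) (lam ⟨x, hx⟩ + lam ⟨y, hy⟩) (by
      rw [map_add, ← hlam, ← hlam, ← hlam, ← map_add]
      rfl)
  have hηmul : ∀ x ∈ ringH P ϖ c, ∀ y ∈ ringH P ϖ c,
      ∃ t ∈ P, η₀ (x * y) - η₀ x * η₀ y = (p : Qb) * ϖ ^ s * t := by
    intro x hx y hy
    rw [hη₀ x hx, hη₀ y hy, hη₀ (x * y) ((ringH P ϖ c).mul_mem hx hy)]
    exact hcong (lam ⟨x * y, (ringH P ϖ c).mul_mem hx hy⟩) (lam ⟨x, hx⟩ * lam ⟨y, hy⟩) (by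
      rw [map_mul, ← hlam, ← hlam, ← hlam, ← map_mul]
      rfl)
  have hηΓ : ∀ a ∈ P, (∀ σ ∈ P.inertiaSubgroupIn ℚ, σ a = a) →
      a ∈ ringH P ϖ c ∧ ∃ t ∈ P, η₀ a - a = (p : Qb) * ϖ ^ s * t := by
    intro a haP haI
    let a₀ : ringI P := ⟨a, haP, haI⟩
    have ha2 : a ∈ ringH P ϖ c := h12 (h01 a₀.2)
    refine ⟨ha2, ?_⟩
    rw [hη₀ a ha2]
    exact hcong (lam ⟨a, ha2⟩) (inclP (ringF P ϖ) P h1P (Subring.inclusion h01 a₀)) (by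
      rw [← hlam, ← hθ0, ← hη1]
      rfl)
  obtain ⟨φ, -, -, hφ3, hφ4⟩ := hBI.fontaine hp hpP hpinv (nsmul_dual_eq_zero h.charP)
    (c := ϖ ^ s) hcm (fun σ _ v w => liftAct_add rb c σ v w) (ringH P ϖ c) η₀ hS hηP hη1' hηadd
    hηmul hηΓ
  -- (S1) the lifts are fixed by the stabiliser of `Π'` in `G_F`
  have hS1 : ∀ σ ∈ P.inertiaSubgroupIn ℚ, σ ϖ = ϖ → σ (Pi' : Qb) = Pi' →
      ∀ x : ringH P ϖ c, σ (lam x : Qb) = lam x := by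
    intro σ hσ hσϖ hσPi x
    exact hlamfix (σ : Qb →+* Qb) (fun a ha => ha.2 σ hσ hσϖ) hσPi x
  have hφ3' : ∀ σ ∈ P.inertiaSubgroupIn ℚ, σ ϖ = ϖ → σ (Pi' : Qb) = Pi' →
      ∀ v, liftAct rb c σ (φ v) = φ v := by
    intro σ hσ hσϖ hσPi
    refine hφ3 σ hσ (fun x hx => (hDec P σ (inertia_le_decomp P hσ) x).mpr hx) (fun x hx => ?_)
    refine ⟨0, P.zero_mem, ?_⟩
    rw [mul_zero, sub_eq_zero, hη₀ x hx]
    exact hS1 σ hσ hσϖ hσPi ⟨x, hx⟩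
  -- (S2) injectivity
  have hbH : (b : Qb) ∈ ringH P ϖ c := ⟨hbP, (fFix_self.pow s).hFix⟩
  have hdH : (d : Qb) ∈ ringH P ϖ c :=
    ⟨d.2, ((fFix_natCast p).mul (fFix_self.pow s)).hFix⟩
  have hwv : P.valuation ((1 + ϖ ^ s) ^ s) = 1 := by
    rw [map_pow, Valuation.map_one_add_of_lt, one_pow]
    rw [map_pow]
    exact pow_lt_one₀ hπ0.le hπ1 (by omega)
  let w : P := ⟨(1 + ϖ ^ s) ^ s, (P.valuation_le_one_iff _).mp hwv.le⟩
  have hw : IsUnit w := (P.valuation_eq_one_iff w).mpr hwv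
  have hηb : η ⟨b, hbH⟩ = Ideal.Quotient.mk _ (b * w) := by
    have e : (⟨(b : Qb), hbH⟩ : ringH P ϖ c) = Subring.inclusion h12 (ϖ₁ ^ s) := Subtype.ext rfl
    rw [e, hη1, map_pow, hθϖ, ← map_pow]
    congr 1
    apply Subtype.ext
    show tw ϖ s ^ s = ϖ ^ s * (1 + ϖ ^ s) ^ s
    unfold tw
    rw [mul_pow]
  have hηd : η ⟨d, hdH⟩ = 0 := by
    have e : (⟨(d : Qb), hdH⟩ : ringH P ϖ c) =
        Subring.inclusion h12 (Subring.inclusion h01 p₀ * ϖ₁ ^ s) := Subtype.ext rfl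
    rw [e, hη1, map_mul, hθ0, map_pow, hθϖ, ← map_pow, ← map_mul,
      Ideal.Quotient.eq_zero_iff_mem, Ideal.mem_span_singleton]
    refine ⟨w, Subtype.ext ?_⟩
    show (p : Qb) * tw ϖ s ^ s = (p : Qb) * ϖ ^ s * (1 + ϖ ^ s) ^ s
    unfold tw
    rw [mul_pow]; ring
  have hinj : Function.Injective φ := by
    apply hφ4
    rintro x hx ⟨t, ht, hxt⟩
    exact mem_of_eta_mem hArch p P hP (ringH P ϖ c) h2P
      (fun x hx y hy hxy => ⟨hxy, hx.2.div hy.2⟩) d b pP w hbH hdH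
      (fun h0 => hd0' (congrArg (fun x : P => (x : Qb)) h0)) (mul_comm _ _) hP hw η hηb hηd
      ⟨x, hx⟩ ⟨⟨t, ht⟩, by
        rw [hlam]
        congr 1
        apply Subtype.ext
        rw [← hη₀ x hx, hxt]
        rfl⟩
  have hsurj : Function.Surjective φ := Finite.injective_iff_surjective.mp hinj
  -- (S4) the stabiliser of `Π'` is contained in `H`
  have hstab : ∀ σ ∈ P.inertiaSubgroupIn ℚ, σ ϖ = ϖ → σ (Pi' : Qb) = Pi' → σ ∈ H := by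
    intro σ hσ hσϖ hσPi
    rw [hHmem]
    refine ⟨hσ, hσϖ, c_eq_zero_of_liftAct (hrb1 σ hσ hσϖ) (fun v => ?_)⟩
    obtain ⟨v', rfl⟩ := hsurj v
    exact hφ3' σ hσ hσϖ hσPi v'
  -- (S5) `H` fixes `Π'`
  have hHPi : ∀ σ ∈ H, σ (Pi' : Qb) = Pi' := by
    refine fix_of_root_count (G'.map (ringF P ϖ).subtype) n (hG'monic.map _).ne_zero
      ((hG'monic.natDegree_map _).trans (hG'deg.trans hGdeg)) (Pi' : Qb) ?_ (Group.gF P ϖ) H
      (fun σ hσ => ⟨((hHmem σ).mp hσ).1, ((hHmem σ).mp hσ).2.1⟩) τ hτ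
      (fun σ hσ => huniq σ hσ.1 hσ.2) (fun σ hσ i => ?_) (fun σ hσ hσPi => hstab σ hσ.1 hσ.2 hσPi)
    · have h1 := congrArg P.subtype hroot
      rw [map_zero, Polynomial.eval_map, Polynomial.hom_eval₂] at h1
      rw [Polynomial.eval_map]
      exact h1
    · rw [Polynomial.coeff_map]
      exact (G'.coeff i).2.2 σ hσ.1 hσ.2
  -- (S6) the `p`-th root
  let z₂ : ringH P ϖ c := ⟨z, hzP, hzH⟩
  refine ⟨(lam z₂ : Qb), (lam z₂).2, fun σ hσ hσϖ hσc => ?_, ?_⟩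
  · exact hS1 σ hσ hσϖ (hHPi σ ((hHmem σ).mpr ⟨hσ, hσϖ, hσc⟩)) z₂
  · obtain ⟨f, hf⟩ : ∃ f, f = polyOfFin (ringI P) (p ^ 2 - 1) a (fun i => ⟨(ha i).1, (ha i).2⟩) :=
      ⟨_, rfl⟩
    have e1 : z₂ ^ p = Subring.inclusion h12 (f.eval₂ (Subring.inclusion h01) ϖ₁) := by
      apply Subtype.ext
      show z ^ p = ((f.eval₂ (Subring.inclusion h01) ϖ₁ : ringF P ϖ) : Qb)
      rw [coe_eval₂_inclusion, hf]
      exact hzu.trans (polyOfFin_eval₂ (ringI P) (p ^ 2 - 1) a _ ϖ).symm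
    have e2 : Ideal.Quotient.mk (Ideal.span {d}) (lam z₂ ^ p) =
        Ideal.Quotient.mk _ (inclP (ringF P ϖ) P h1P (f.eval₂ (Subring.inclusion h01) ϖ')) := by
      rw [map_pow, ← hlam, ← map_pow, e1, hη1, hθ]
    obtain ⟨t, ht, hxt⟩ := hcong _ _ e2
    have e3 : ((inclP (ringF P ϖ) P h1P (f.eval₂ (Subring.inclusion h01) ϖ') : P) : Qb) =
        ∑ i, a i * tw ϖ s ^ (i : ℕ) := by
      show ((f.eval₂ (Subring.inclusion h01) ϖ' : ringF P ϖ) : Qb) = _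
      rw [coe_eval₂_inclusion, hf]
      exact polyOfFin_eval₂ (ringI P) (p ^ 2 - 1) a _ (tw ϖ s)
    have e4 : (lam z₂ : Qb) ^ p - ∑ i, a i * tw ϖ s ^ (i : ℕ) = (p : Qb) * ϖ ^ s * t := by
      rw [← e3]
      exact hxt
    rw [e4, mul_div_cancel_left₀ t hd0']
    exact ht

end Fermat.Agent.TW.Flat.SSC
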