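/-
TW-FLAT, row 352 (FLAT-SSC-LEVELS): the level calculus in `F = Qb^I(ϖ)`, `ϖ^(p²−1) = −p`.

`P` a valuation subring of `Qb` over `p`, `w = v(ϖ)`, `e = p² − 1`, so `v(p) = w^e`.  By
`Loc.Tame.fVal_aux` a nonzero `G_F`-fixed element has valuation `w^m`, `m ∈ ℤ`; hence

* `ffix_discrete` : a `G_F`-fixed `x` with `v(x) < w^n` has `v(x) ≤ w^(n+1)`.

The three statements of `SSC/Basic.lean`:

* `k3 : K3` : for `y ∈ F`, `d = y − 1`: `y^p − 1 = d^p + p d r`, `r` integral; if `v(d) = w^i`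
  with `i ≤ p` then `v(y^p − 1) = w^(ip)`, otherwise `v(y^p − 1) ≤ w^(p²+p)`.
* `twistDiff : TwistDiff` : the terms `a'_i ϖ^i` have pairwise distinct valuations, so the term
  `i = m` is the only one of valuation `w^m` and all others are `≤ w^(m+1)`; the twist multiplies
  the term `i` by `(1+ϖ^s)^i − 1 = ϖ^s (i + ϖ^s c_i)`.
* `raise : Raise` : Teichmüller representative of `(u−1)/ϖ^(pi)`, its `p`-th root `ξ` (again a root
  of unity of order prime to `p`, hence inertia-fixed) and `y = (1 + ξ ϖ^i)⁻¹` (`y = ξ⁻¹` if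
  `i = 0`).
-/
import Mathlib
import Fermat.Agent.TW.Flat.SSC.Basic
import Fermat.Agent.TW.Flat.Local.Basic
import Fermat.Agent.TW.Flat.Local.Teich
import Fermat.Agent.TW.Flat.Local.Tame

set_option autoImplicit false

namespace Fermat.Agent.TW.Flat.SSC.Levels

open Fermat.Agent.S53 Fermat.Agent.TW Fermat.Agent.Lib.FinFlat Fermat.Agent.TW.Flat
open Fermat.Agent.TW.Flat.Loc

local notation "Qb" => AlgebraicClosure ℚ

/-! ### Closure properties of `FFix` -/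

section Fix

variable {P : ValuationSubring Qb} {ϖ : Qb}

theorem ffix_of_ifix {x : Qb} (h : IFix P x) : FFix P ϖ x := fun σ hσ _ => h σ hσ

theorem ffix_pi : FFix P ϖ ϖ := fun _ _ h => h

theorem ffix_one : FFix P ϖ 1 := fun σ _ _ => map_one σ

theorem ffix_natCast (n : ℕ) : FFix P ϖ (n : Qb) := fun σ _ _ => map_natCast σ n

theorem ffix_add {x y : Qb} (hx : FFix P ϖ x) (hy : FFix P ϖ y) : FFix P ϖ (x + y) :=
  fun σ hσ h => by rw [map_add, hx σ hσ h, hy σ hσ h]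

theorem ffix_sub {x y : Qb} (hx : FFix P ϖ x) (hy : FFix P ϖ y) : FFix P ϖ (x - y) :=
  fun σ hσ h => by rw [map_sub, hx σ hσ h, hy σ hσ h]

theorem ffix_mul {x y : Qb} (hx : FFix P ϖ x) (hy : FFix P ϖ y) : FFix P ϖ (x * y) :=
  fun σ hσ h => by rw [map_mul, hx σ hσ h, hy σ hσ h]

theorem ffix_pow {x : Qb} (hx : FFix P ϖ x) (n : ℕ) : FFix P ϖ (x ^ n) :=
  fun σ hσ h => by rw [map_pow, hx σ hσ h]

theorem ffix_inv {x : Qb} (hx : FFix P ϖ x) : FFix P ϖ x⁻¹ :=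
  fun σ hσ h => by rw [map_inv₀, hx σ hσ h]

theorem ffix_div {x y : Qb} (hx : FFix P ϖ x) (hy : FFix P ϖ y) : FFix P ϖ (x / y) :=
  fun σ hσ h => by rw [map_div₀, hx σ hσ h, hy σ hσ h]

end Fix

/-! ### Elementary expansions -/

/-- `(1 + d)^p = 1 + d^p + p d r` with `r` integral. -/
theorem one_add_pow_prime (P : ValuationSubring Qb) {p : ℕ} (hp : p.Prime) {d : Qb}
    (hd : d ∈ P) : ∃ r ∈ P, (1 + d) ^ p = 1 + d ^ p + (p : Qb) * d * r := by
  obtain ⟨r, hr⟩ := exists_add_pow_prime_eq hp (1 : P) ⟨d, hd⟩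
  refine ⟨r, r.2, ?_⟩
  have h := congrArg (fun z : P => (z : Qb)) hr
  simpa using h

/-- `(1 + b)^i = 1 + i b + b² c` with `c` integral. -/
theorem one_add_pow_linear (P : ValuationSubring Qb) {b : Qb} (hb : b ∈ P) (i : ℕ) :
    ∃ c ∈ P, (1 + b) ^ i = 1 + (i : Qb) * b + b ^ 2 * c := by
  induction i with
  | zero => exact ⟨0, P.zero_mem, by simp⟩
  | succ i ih =>
    obtain ⟨c, hc, h⟩ := ih
    refine ⟨(i : Qb) + c + b * c, ?_, ?_⟩
    · exact add_mem (add_mem (natCast_mem P i) hc) (mul_mem hb hc)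
    · rw [pow_succ, h]
      push_cast
      ring

/-- A root of unity of order prime to `p` has a `p`-th root among the roots of unity of the same
order. -/
theorem exists_pth_root {p : ℕ} (hp : p.Prime) {ζ : Qb} {m : ℕ} (hm : 0 < m) (hpm : ¬ p ∣ m)
    (hζ : ζ ^ m = 1) : ∃ ξ : Qb, ξ ^ m = 1 ∧ ξ ^ p = ζ := by
  have hcop : Nat.Coprime p m := (Nat.Prime.coprime_iff_not_dvd hp).2 hpm
  have h1 : p ^ Nat.totient m ≡ 1 [MOD m] := Nat.ModEq.pow_totient hcop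
  have hpos : 0 < Nat.totient m := Nat.totient_pos.2 hm
  have hle : 1 ≤ p ^ Nat.totient m := Nat.one_le_pow _ _ hp.pos
  obtain ⟨t, ht⟩ := (Nat.modEq_iff_dvd' hle).1 h1.symm
  have ht' : p ^ Nat.totient m = 1 + m * t := by omega
  refine ⟨ζ ^ (p ^ (Nat.totient m - 1)), ?_, ?_⟩
  · rw [← pow_mul, mul_comm, pow_mul, hζ, one_pow]
  · rw [← pow_mul, ← pow_succ]
    have h2 : Nat.totient m - 1 + 1 = Nat.totient m := by omega
    rw [h2, ht', pow_add, pow_one, pow_mul, hζ, one_pow, mul_one]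

/-! ### The setting `ϖ ^ e = -p` -/

section Setting

variable {p : ℕ} [hp : Fact p.Prime] {P : ValuationSubring Qb} {e : ℕ} {ϖ : Qb}

/-- `x / ϖ^n ∈ P ↔ v(x) ≤ v(ϖ)^n`. -/
theorem div_pow_mem_iff (hϖ0 : ϖ ≠ 0) (x : Qb) (n : ℕ) :
    x / ϖ ^ n ∈ P ↔ P.valuation x ≤ P.valuation ϖ ^ n := by
  have hw0 : 0 < P.valuation ϖ := zero_lt_iff.2 ((Valuation.ne_zero_iff _).2 hϖ0)
  rw [← P.valuation_le_one_iff, map_div₀, map_pow, div_le_one₀ (pow_pos hw0 n)]

/-- The valuation of a nonzero `G_F`-fixed element is an integral power of `v(ϖ)`. -/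
theorem ffix_val (hP : P.LiesOverPrime p) (he : 0 < e) (hϖ : ϖ ^ e = -(p : Qb)) {x : Qb}
    (hx0 : x ≠ 0) (hx : FFix P ϖ x) : ∃ m : ℤ, P.valuation x = P.valuation ϖ ^ m := by
  obtain ⟨m, hm⟩ := Tame.fVal_aux hP he hϖ x hx0 hx
  refine ⟨m, ?_⟩
  have h1 := (Basic.isPUnit_iff_valuation_eq_one P _).1 hm
  rw [map_div₀, map_zpow₀] at h1
  exact (div_eq_one_iff_eq (zpow_ne_zero _ (Tame.val_pi_pos he hϖ).ne')).1 h1

/-- Discreteness of the valuation on `F`: a `G_F`-fixed `x` with `v(x) < v(ϖ)^n` has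
`v(x) ≤ v(ϖ)^(n+1)`. -/
theorem ffix_discrete (hP : P.LiesOverPrime p) (he : 0 < e) (hϖ : ϖ ^ e = -(p : Qb)) {x : Qb}
    (hx : FFix P ϖ x) (n : ℕ) (h : P.valuation x < P.valuation ϖ ^ n) :
    P.valuation x ≤ P.valuation ϖ ^ (n + 1) := by
  rcases eq_or_ne x 0 with rfl | hx0
  · rw [map_zero]
    exact zero_le
  obtain ⟨m, hm⟩ := ffix_val hP he hϖ hx0 hx
  have hw0 : 0 < P.valuation ϖ := Tame.val_pi_pos he hϖ
  have hw1 : P.valuation ϖ < 1 := Tame.val_pi_lt_one hP hϖ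
  have e1 : P.valuation ϖ ^ n = P.valuation ϖ ^ (n : ℤ) := (zpow_natCast _ _).symm
  have e2 : P.valuation ϖ ^ (n + 1) = P.valuation ϖ ^ ((n + 1 : ℕ) : ℤ) := (zpow_natCast _ _).symm
  rw [hm, e1, zpow_lt_zpow_iff_right_of_lt_one₀ hw0 hw1] at h
  rw [hm, e2, zpow_le_zpow_iff_right_of_lt_one₀ hw0 hw1]
  push_cast
  omega

/-- Teichmüller step: a unit of `F` is congruent modulo `ϖ` to the `p`-th power of an
inertia-fixed unit (a root of unity of order prime to `p`). -/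
theorem teich_step (hP : P.LiesOverPrime p) (he : 0 < e) (hϖ : ϖ ^ e = -(p : Qb)) {t : Qb}
    (ht : IsPUnit P t) (htF : FFix P ϖ t) :
    ∃ ξ : Qb, IsPUnit P ξ ∧ IFix P ξ ∧ P.valuation (t - ξ ^ p) ≤ P.valuation ϖ := by
  obtain ⟨ζ, m, hm, hpm, hζ, hmem⟩ := Basic.teich p P hP t ht
  obtain ⟨ξ, hξm, hξp⟩ := exists_pth_root hp.out hm hpm hζ
  have hζI : IFix P ζ := fun σ hσ => Basic.rootFix p P hP ζ m hm hpm hζ σ hσ
  refine ⟨ξ, ?_, fun σ hσ => Basic.rootFix p P hP ξ m hm hpm hξm σ hσ, ?_⟩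
  · rw [Basic.isPUnit_iff_valuation_eq_one]
    exact Fermat.Agent.PT.Levels.valuation_eq_one_of_pow_eq_one P hm.ne' hξm
  · rw [hξp]
    have h := ffix_discrete hP he hϖ (ffix_sub htF (ffix_of_ifix hζI)) 0
      (by rw [pow_zero]; exact P.mem_nonunits_iff.1 hmem)
    simpa using h

end Setting

/-! ### (K3) -/

/-- **(K3)** -/
theorem k3 : K3 := by
  intro p _ P hP ϖ hϖ y hy j hpj hj hlev
  have hp : p.Prime := Fact.out
  have hp2 : 2 ≤ p := hp.two_le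
  have he1 : p ^ 2 - 1 + 1 = p ^ 2 := Nat.sub_add_cancel (Nat.one_le_pow _ _ hp.pos)
  have he : 0 < p ^ 2 - 1 := by
    have : 4 ≤ p ^ 2 := by nlinarith
    omega
  have hϖ0 : ϖ ≠ 0 := Tame.pi_ne_zero he hϖ
  have hw0 : 0 < P.valuation ϖ := Tame.val_pi_pos he hϖ
  have hw1 : P.valuation ϖ < 1 := Tame.val_pi_lt_one hP hϖ
  have hvp : P.valuation (p : Qb) = P.valuation ϖ ^ (p ^ 2 - 1) := (Tame.val_pi_pow hϖ).symm
  have hj1 : 1 ≤ j := by
    rcases Nat.eq_zero_or_pos j with rfl | h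
    · exact absurd (dvd_zero p) hpj
    · exact h
  unfold Lev at hlev ⊢
  rw [div_pow_mem_iff hϖ0] at hlev ⊢
  have hxF : FFix P ϖ (y ^ p - 1) := ffix_sub (ffix_pow hy p) ffix_one
  refine ffix_discrete hP he hϖ hxF j (lt_of_le_of_ne hlev fun heq => ?_)
  -- now `v(y^p − 1) = w^j`
  have hx1 : P.valuation (y ^ p - 1) < 1 := by
    rw [heq]
    exact pow_lt_one₀ zero_le hw1 (by omega)
  have hyP : y ∈ P := by
    rw [← P.valuation_le_one_iff]
    have h1 : P.valuation (y ^ p) ≤ 1 := by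
      have e1 : y ^ p = (y ^ p - 1) + 1 := by ring
      rw [e1]
      exact (P.valuation.map_add _ _).trans (max_le hx1.le (by rw [map_one]))
    rw [map_pow] at h1
    exact (pow_le_one_iff_of_nonneg zero_le hp.ne_zero).1 h1
  obtain ⟨d, hd⟩ : ∃ d : Qb, d = y - 1 := ⟨_, rfl⟩
  have hdP : d ∈ P := by
    rw [hd]
    exact sub_mem hyP (one_mem P)
  have hdF : FFix P ϖ d := by
    rw [hd]
    exact ffix_sub hy ffix_one
  obtain ⟨r, hrP, hr⟩ := one_add_pow_prime P hp hdP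
  have hyd : y = 1 + d := by
    rw [hd]
    ring
  have hx : y ^ p - 1 = d ^ p + (p : Qb) * d * r := by
    rw [hyd, hr]
    ring
  have hvr : P.valuation r ≤ 1 := (P.valuation_le_one_iff _).2 hrP
  have hvd : P.valuation d ≤ 1 := (P.valuation_le_one_iff _).2 hdP
  have hvpdr : P.valuation ((p : Qb) * d * r) ≤ P.valuation ϖ ^ (p ^ 2 - 1) * P.valuation d := by
    rw [map_mul, map_mul, hvp]
    calc P.valuation ϖ ^ (p ^ 2 - 1) * P.valuation d * P.valuation r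
        ≤ P.valuation ϖ ^ (p ^ 2 - 1) * P.valuation d * 1 := mul_le_mul' le_rfl hvr
      _ = _ := mul_one _
  have hvpdr1 : P.valuation ((p : Qb) * d * r) < 1 := by
    refine lt_of_le_of_lt hvpdr ?_
    calc P.valuation ϖ ^ (p ^ 2 - 1) * P.valuation d
        ≤ P.valuation ϖ ^ (p ^ 2 - 1) * 1 := mul_le_mul' le_rfl hvd
      _ = P.valuation ϖ ^ (p ^ 2 - 1) := mul_one _
      _ < 1 := pow_lt_one₀ zero_le hw1 he.ne'
  have hd1 : P.valuation d < 1 := by
    by_contra hcon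
    rw [not_lt] at hcon
    have h1 : P.valuation (d ^ p) < 1 := by
      have e1 : d ^ p = (y ^ p - 1) - (p : Qb) * d * r := by
        rw [hx]
        ring
      rw [e1]
      exact lt_of_le_of_lt (P.valuation.map_sub _ _) (max_lt hx1 hvpdr1)
    rw [map_pow] at h1
    exact absurd (one_le_pow₀ hcon) (not_le.2 h1)
  have hd0 : d ≠ 0 := by
    intro h0
    have e1 : y ^ p - 1 = 0 := by
      rw [hx, h0, zero_pow hp.ne_zero]
      ring
    rw [e1, map_zero] at heq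
    exact (pow_pos hw0 j).ne heq
  obtain ⟨i, hi⟩ := ffix_val hP he hϖ hd0 hdF
  have hi1 : 1 ≤ i := by
    by_contra hcon
    have hi0 : i ≤ 0 := by omega
    have h1 : 1 ≤ P.valuation ϖ ^ i := one_le_zpow_of_nonpos₀ hw0 hw1.le hi0
    rw [← hi] at h1
    exact absurd hd1 (not_lt.2 h1)
  obtain ⟨n, rfl⟩ : ∃ n : ℕ, i = (n : ℤ) := ⟨i.toNat, by omega⟩
  rw [zpow_natCast] at hi
  have hn1 : 1 ≤ n := by exact_mod_cast hi1
  have hvdp : P.valuation (d ^ p) = P.valuation ϖ ^ (n * p) := by rw [map_pow, hi, pow_mul]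
  have hvpdr' : P.valuation ((p : Qb) * d * r) ≤ P.valuation ϖ ^ (p ^ 2 - 1 + n) := by
    rw [pow_add, ← hi]
    exact hvpdr
  rcases le_or_gt n p with hnp | hnp
  · have hlt : P.valuation ((p : Qb) * d * r) < P.valuation (d ^ p) := by
      rw [hvdp]
      refine lt_of_le_of_lt hvpdr' (pow_lt_pow_right_of_lt_one₀ hw0 hw1 ?_)
      nlinarith
    have hvx : P.valuation (y ^ p - 1) = P.valuation ϖ ^ (n * p) := by
      rw [hx, ← hvdp]
      exact Valuation.map_add_eq_of_lt_left _ hlt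
    rw [hvx] at heq
    have e1 : n * p = j := pow_right_injective₀ hw0 hw1.ne heq
    exact hpj ⟨n, by rw [← e1, mul_comm]⟩
  · have h1 : P.valuation (y ^ p - 1) ≤ P.valuation ϖ ^ (p ^ 2 + p) := by
      rw [hx]
      refine (P.valuation.map_add _ _).trans (max_le ?_ ?_)
      · rw [hvdp]
        exact pow_le_pow_of_le_one zero_le hw1.le (by nlinarith)
      · exact hvpdr'.trans (pow_le_pow_of_le_one zero_le hw1.le (by omega))
    rw [heq] at h1
    have h2 : p ^ 2 + p ≤ j := (pow_le_pow_iff_right_of_lt_one₀ hw0 hw1).1 h1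
    omega

/-! ### (RAISE) -/

/-- **(RAISE)** -/
theorem raise : Raise := by
  intro p _ P hP ϖ hϖ u i hu hi hlev hunit
  have hp : p.Prime := Fact.out
  have hp2 : 2 ≤ p := hp.two_le
  have he1 : p ^ 2 - 1 + 1 = p ^ 2 := Nat.sub_add_cancel (Nat.one_le_pow _ _ hp.pos)
  have he : 0 < p ^ 2 - 1 := by
    have : 4 ≤ p ^ 2 := by nlinarith
    omega
  have hϖ0 : ϖ ≠ 0 := Tame.pi_ne_zero he hϖ
  have hw0 : 0 < P.valuation ϖ := Tame.val_pi_pos he hϖ
  have hw1 : P.valuation ϖ < 1 := Tame.val_pi_lt_one hP hϖ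
  have hvp : P.valuation (p : Qb) = P.valuation ϖ ^ (p ^ 2 - 1) := (Tame.val_pi_pow hϖ).symm
  have hϖP : ϖ ∈ P := (P.valuation_le_one_iff _).1 hw1.le
  unfold Lev at hlev
  -- the key: a unit `z` of `F` with `u ≡ z^p` modulo `ϖ^(pi+1)`
  have key : ∃ z : Qb, IsPUnit P z ∧ FFix P ϖ z ∧
      P.valuation (u - z ^ p) ≤ P.valuation ϖ ^ (p * i + 1) := by
    rcases Nat.eq_zero_or_pos i with rfl | hi0
    · obtain ⟨ξ, hξu, hξI, hξ⟩ := teich_step hP he hϖ (hunit rfl) hu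
      exact ⟨ξ, hξu, ffix_of_ifix hξI, by simpa using hξ⟩
    · obtain ⟨t, htP, hut⟩ : ∃ t ∈ P, u = 1 + ϖ ^ (p * i) * t :=
        ⟨(u - 1) / ϖ ^ (p * i), hlev, by field_simp; ring⟩
      have htF : FFix P ϖ t := by
        have e1 : t = (u - 1) / ϖ ^ (p * i) := by
          rw [hut]
          field_simp
          ring
        rw [e1]
        exact ffix_div (ffix_sub hu ffix_one) (ffix_pow ffix_pi _)
      have hu1 : u - 1 = ϖ ^ (p * i) * t := by
        rw [hut]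
        ring
      by_cases htu : P.valuation t < 1
      · refine ⟨1, isPUnit_one P, ffix_one, ?_⟩
        rw [one_pow]
        refine ffix_discrete hP he hϖ (ffix_sub hu ffix_one) _ ?_
        rw [hu1, map_mul, map_pow]
        calc P.valuation ϖ ^ (p * i) * P.valuation t
            < P.valuation ϖ ^ (p * i) * 1 := mul_lt_mul_of_pos_left htu (pow_pos hw0 _)
          _ = _ := mul_one _
      · have ht1 : P.valuation t = 1 :=
          le_antisymm ((P.valuation_le_one_iff _).2 htP) (not_lt.1 htu)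
        obtain ⟨ξ, hξu, hξI, hξ⟩ := teich_step hP he hϖ
          ((Basic.isPUnit_iff_valuation_eq_one P t).2 ht1) htF
        have hξ1 : P.valuation ξ = 1 := (Basic.isPUnit_iff_valuation_eq_one P ξ).1 hξu
        have hdP : ξ * ϖ ^ i ∈ P := mul_mem hξu.2.1 (pow_mem hϖP i)
        obtain ⟨r, hrP, hr⟩ := one_add_pow_prime P hp hdP
        have hvr : P.valuation r ≤ 1 := (P.valuation_le_one_iff _).2 hrP
        refine ⟨1 + ξ * ϖ ^ i, ?_, ?_, ?_⟩
        · rw [Basic.isPUnit_iff_valuation_eq_one]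
          have hd1 : P.valuation (ξ * ϖ ^ i) < P.valuation (1 : Qb) := by
            rw [map_mul, hξ1, one_mul, map_pow, map_one]
            exact pow_lt_one₀ zero_le hw1 hi0.ne'
          rw [Valuation.map_add_eq_of_lt_left _ hd1, map_one]
        · exact ffix_add ffix_one (ffix_mul (ffix_of_ifix hξI) (ffix_pow ffix_pi i))
        · have hexp : u - (1 + ξ * ϖ ^ i) ^ p =
              ϖ ^ (p * i) * (t - ξ ^ p) - (p : Qb) * (ξ * ϖ ^ i) * r := by
            rw [hr, hut]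
            ring
          rw [hexp]
          refine (P.valuation.map_sub _ _).trans (max_le ?_ ?_)
          · rw [map_mul, map_pow, pow_succ]
            exact mul_le_mul' le_rfl hξ
          · rw [map_mul, map_mul, map_mul, map_pow, hvp, hξ1, one_mul]
            calc P.valuation ϖ ^ (p ^ 2 - 1) * P.valuation ϖ ^ i * P.valuation r
                ≤ P.valuation ϖ ^ (p ^ 2 - 1) * P.valuation ϖ ^ i * 1 := mul_le_mul' le_rfl hvr
              _ = P.valuation ϖ ^ (p ^ 2 - 1 + i) := by rw [mul_one, pow_add]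
              _ ≤ P.valuation ϖ ^ (p * i + 1) :=
                pow_le_pow_of_le_one zero_le hw1.le (by nlinarith)
  obtain ⟨z, hzu, hzF, hz⟩ := key
  have hz1 : P.valuation z = 1 := (Basic.isPUnit_iff_valuation_eq_one P z).1 hzu
  have hz0 : z ≠ 0 := hzu.1
  refine ⟨z⁻¹, ?_, ffix_inv hzF, ?_⟩
  · rw [Basic.isPUnit_iff_valuation_eq_one, map_inv₀, hz1, inv_one]
  · show (u * z⁻¹ ^ p - 1) / ϖ ^ (p * i + 1) ∈ P
    rw [div_pow_mem_iff hϖ0]
    have e1 : u * z⁻¹ ^ p - 1 = (u - z ^ p) * z⁻¹ ^ p := by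
      rw [sub_mul, inv_pow, mul_inv_cancel₀ (pow_ne_zero _ hz0)]
    rw [e1, map_mul, map_pow, map_inv₀, hz1, inv_one, one_pow, mul_one]
    exact hz

/-! ### (TWIST-DIFF) -/

/-- **(TWIST-DIFF)** -/
theorem twistDiff : TwistDiff := by
  intro p _ P hP ϖ hϖ a ha x₀ hx₀P hx₀ m s hm1 hme hpm hs hunit
  have hp : p.Prime := Fact.out
  have he : 0 < p ^ 2 - 1 := by omega
  have hϖ0 : ϖ ≠ 0 := Tame.pi_ne_zero he hϖ
  have hw0 : 0 < P.valuation ϖ := Tame.val_pi_pos he hϖ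
  have hw1 : P.valuation ϖ < 1 := Tame.val_pi_lt_one hP hϖ
  have hϖP : ϖ ∈ P := (P.valuation_le_one_iff _).1 hw1.le
  -- the modified coefficients `a' = a − x₀ δ₀`
  obtain ⟨z, hz⟩ : ∃ z : Fin (p ^ 2 - 1), (z : ℕ) = 0 := ⟨⟨0, he⟩, rfl⟩
  obtain ⟨a', ha'⟩ : ∃ a' : Fin (p ^ 2 - 1) → Qb, ∀ i, a' i = a i - (if i = z then x₀ else 0) :=
    ⟨_, fun _ => rfl⟩
  have ha'ne : ∀ i, i ≠ z → a' i = a i := by
    intro i hi
    rw [ha', if_neg hi, sub_zero]
  have ha'fix : ∀ i, ∀ σ ∈ P.inertiaSubgroupIn ℚ, σ (a' i) = a' i := by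
    intro i σ hσ
    rw [ha']
    split_ifs
    · rw [map_sub, (ha i).2 σ hσ, hx₀ σ hσ]
    · rw [sub_zero, (ha i).2 σ hσ]
  have hsum' : ∑ i, a' i * ϖ ^ (i : ℕ) = ∑ i, a i * ϖ ^ (i : ℕ) - x₀ := by
    have e1 : ∀ i ∈ (Finset.univ : Finset (Fin (p ^ 2 - 1))), a' i * ϖ ^ (i : ℕ) =
        a i * ϖ ^ (i : ℕ) - (if i = z then x₀ else 0) := by
      intro i _
      rw [ha', sub_mul]
      split_ifs with h
      · rw [h, hz, pow_zero, mul_one, mul_one]
      · rw [zero_mul]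
    rw [Finset.sum_congr rfl e1, Finset.sum_sub_distrib, Finset.sum_ite_eq' Finset.univ z,
      if_pos (Finset.mem_univ z)]
  have hS : P.valuation (∑ i, a' i * ϖ ^ (i : ℕ)) = P.valuation ϖ ^ m := by
    rw [hsum']
    have h1 := (Basic.isPUnit_iff_valuation_eq_one P _).1 hunit
    rw [map_div₀, map_pow] at h1
    exact (div_eq_one_iff_eq (pow_ne_zero _ hw0.ne')).1 h1
  have hne : ∃ i ∈ (Finset.univ : Finset (Fin (p ^ 2 - 1))), a' i * ϖ ^ (i : ℕ) ≠ 0 := by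
    by_contra hcon
    push Not at hcon
    rw [Finset.sum_eq_zero hcon, map_zero] at hS
    exact (pow_pos hw0 m).ne hS
  have hdist : ∀ i j : Fin (p ^ 2 - 1), a' i * ϖ ^ (i : ℕ) ≠ 0 → a' j * ϖ ^ (j : ℕ) ≠ 0 →
      P.valuation (a' i * ϖ ^ (i : ℕ)) = P.valuation (a' j * ϖ ^ (j : ℕ)) → i = j :=
    fun i j hi hj hij => Tame.term_distinct hP he hϖ a' ha'fix i j hi hj hij
  obtain ⟨i₀, -, hi₀, hv, hmax⟩ := Tame.val_sum_eq_of_distinct P.valuation Finset.univ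
    (fun i : Fin (p ^ 2 - 1) => a' i * ϖ ^ (i : ℕ)) (fun i _ j _ hi hj hij => hdist i j hi hj hij)
    hne
  rw [hS] at hv
  obtain ⟨n, hn⟩ := Tame.val_term hP he hϖ (left_ne_zero_of_mul hi₀) (ha'fix i₀) i₀
  have hnm : ((p ^ 2 - 1 : ℕ) : ℤ) * n + (i₀ : ℕ) = (m : ℤ) := by
    have h1 : P.valuation ϖ ^ (((p ^ 2 - 1 : ℕ) : ℤ) * n + (i₀ : ℕ)) = P.valuation ϖ ^ (m : ℤ) := by
      rw [← hn, ← hv, zpow_natCast]
    exact zpow_right_injective₀ hw0 hw1.ne h1
  have hi₀m : (i₀ : ℕ) = m := by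
    have h3 : ((i₀ : ℕ) : ℤ) < ((p ^ 2 - 1 : ℕ) : ℤ) := by exact_mod_cast i₀.2
    have h4 : (m : ℤ) < ((p ^ 2 - 1 : ℕ) : ℤ) := by exact_mod_cast hme
    have h5 : (0 : ℤ) ≤ ((i₀ : ℕ) : ℤ) := Int.natCast_nonneg _
    have h6 : (0 : ℤ) ≤ (m : ℤ) := Int.natCast_nonneg _
    have h7 : (0 : ℤ) ≤ ((p ^ 2 - 1 : ℕ) : ℤ) := Int.natCast_nonneg _
    have hn0 : n = 0 := by
      by_contra hcon
      rcases lt_or_gt_of_ne hcon with h | h
      · have h8 : ((p ^ 2 - 1 : ℕ) : ℤ) * n ≤ ((p ^ 2 - 1 : ℕ) : ℤ) * (-1) :=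
          Int.mul_le_mul_of_nonneg_left (by omega) h7
        omega
      · have h8 : ((p ^ 2 - 1 : ℕ) : ℤ) * 1 ≤ ((p ^ 2 - 1 : ℕ) : ℤ) * n :=
          Int.mul_le_mul_of_nonneg_left (by omega) h7
        omega
    rw [hn0, mul_zero, zero_add] at hnm
    exact_mod_cast hnm
  have hi₀z : i₀ ≠ z := by
    intro h
    rw [h, hz] at hi₀m
    omega
  -- the leading term and the others
  have hlead : P.valuation (a i₀ * ϖ ^ (i₀ : ℕ)) = P.valuation ϖ ^ m := by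
    rw [← ha'ne i₀ hi₀z]
    exact hv.symm
  have hrest : ∀ i : Fin (p ^ 2 - 1), i ≠ i₀ → i ≠ z →
      P.valuation (a i * ϖ ^ (i : ℕ)) ≤ P.valuation ϖ ^ (m + 1) := by
    intro i hi hiz
    rw [← ha'ne i hiz]
    have hF : FFix P ϖ (a' i * ϖ ^ (i : ℕ)) :=
      ffix_mul (ffix_of_ifix (ha'fix i)) (ffix_pow ffix_pi _)
    refine ffix_discrete hP he hϖ hF m (lt_of_le_of_ne ?_ fun heq => ?_)
    · rw [hv]
      exact hmax i (Finset.mem_univ i)
    · have h0 : a' i * ϖ ^ (i : ℕ) ≠ 0 := by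
        intro h0
        rw [h0, map_zero] at heq
        exact (pow_pos hw0 m).ne heq
      exact hi (hdist i i₀ h0 hi₀ (heq.trans hv))
  -- the twist
  have hbP : ϖ ^ s ∈ P := pow_mem hϖP s
  have hvb : P.valuation (ϖ ^ s) < 1 := by
    rw [map_pow]
    exact pow_lt_one₀ zero_le hw1 (by omega)
  have hterm : ∀ i : Fin (p ^ 2 - 1), ∃ c ∈ P,
      a i * tw ϖ s ^ (i : ℕ) - a i * ϖ ^ (i : ℕ) =
        a i * ϖ ^ (i : ℕ) * ϖ ^ s * (((i : ℕ) : Qb) + ϖ ^ s * c) := by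
    intro i
    obtain ⟨c, hc, h⟩ := one_add_pow_linear P hbP (i : ℕ)
    refine ⟨c, hc, ?_⟩
    unfold tw
    rw [mul_pow, h]
    ring
  choose c hcP hc using hterm
  have hlast : ∀ i : Fin (p ^ 2 - 1), P.valuation (((i : ℕ) : Qb) + ϖ ^ s * c i) ≤ 1 :=
    fun i => (P.valuation_le_one_iff _).2 (add_mem (natCast_mem P _) (mul_mem hbP (hcP i)))
  have hD : ∑ i, a i * tw ϖ s ^ (i : ℕ) - ∑ i, a i * ϖ ^ (i : ℕ) =
      ∑ i, a i * ϖ ^ (i : ℕ) * ϖ ^ s * (((i : ℕ) : Qb) + ϖ ^ s * c i) := by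
    rw [← Finset.sum_sub_distrib]
    exact Finset.sum_congr rfl fun i _ => hc i
  have hmain : P.valuation (a i₀ * ϖ ^ (i₀ : ℕ) * ϖ ^ s * (((i₀ : ℕ) : Qb) + ϖ ^ s * c i₀)) =
      P.valuation ϖ ^ (m + s) := by
    have hvm : P.valuation ((m : ℕ) : Qb) = 1 := by
      have hvl : P.valuation (p : Qb) < 1 := P.mem_nonunits_iff.mp hP
      have h := Fermat.Agent.Lib.FrobeniusExists.val_intCast_eq_one P.valuation hp hvl
        (n := (m : ℤ)) (by exact_mod_cast hpm)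
      simpa using h
    have hunit' : P.valuation (((i₀ : ℕ) : Qb) + ϖ ^ s * c i₀) = 1 := by
      rw [hi₀m]
      have hlt : P.valuation (ϖ ^ s * c i₀) < P.valuation ((m : ℕ) : Qb) := by
        rw [hvm, map_mul]
        calc P.valuation (ϖ ^ s) * P.valuation (c i₀)
            ≤ P.valuation (ϖ ^ s) * 1 := mul_le_mul' le_rfl ((P.valuation_le_one_iff _).2 (hcP i₀))
          _ = P.valuation (ϖ ^ s) := mul_one _
          _ < 1 := hvb
      rw [Valuation.map_add_eq_of_lt_left _ hlt, hvm]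
    rw [map_mul, map_mul, hlead, hunit', mul_one, map_pow, pow_add]
  have hother : ∀ i ∈ (Finset.univ : Finset (Fin (p ^ 2 - 1))).erase i₀,
      P.valuation (a i * ϖ ^ (i : ℕ) * ϖ ^ s * (((i : ℕ) : Qb) + ϖ ^ s * c i)) ≤
        P.valuation ϖ ^ (m + s + 1) := by
    intro i hi
    have hii₀ : i ≠ i₀ := Finset.ne_of_mem_erase hi
    by_cases hiz : i = z
    · rw [← hc i, hiz, hz, pow_zero, pow_zero, sub_self, map_zero]
      exact zero_le
    · rw [map_mul, map_mul, map_pow]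
      calc P.valuation (a i * ϖ ^ (i : ℕ)) * P.valuation ϖ ^ s *
              P.valuation (((i : ℕ) : Qb) + ϖ ^ s * c i)
          ≤ P.valuation ϖ ^ (m + 1) * P.valuation ϖ ^ s * 1 :=
            mul_le_mul' (mul_le_mul' (hrest i hii₀ hiz) le_rfl) (hlast i)
        _ = P.valuation ϖ ^ (m + s + 1) := by
          rw [mul_one, ← pow_add]
          congr 1
          omega
  rw [Basic.isPUnit_iff_valuation_eq_one, map_div₀, map_pow, hD,
    ← Finset.add_sum_erase _ _ (Finset.mem_univ i₀)]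
  have hlt : P.valuation (∑ i ∈ (Finset.univ : Finset (Fin (p ^ 2 - 1))).erase i₀,
      a i * ϖ ^ (i : ℕ) * ϖ ^ s * (((i : ℕ) : Qb) + ϖ ^ s * c i)) <
      P.valuation (a i₀ * ϖ ^ (i₀ : ℕ) * ϖ ^ s * (((i₀ : ℕ) : Qb) + ϖ ^ s * c i₀)) := by
    rw [hmain]
    refine lt_of_le_of_lt (Valuation.map_sum_le _ hother) ?_
    exact pow_lt_pow_right_of_lt_one₀ hw0 hw1 (by omega)
  rw [Valuation.map_add_eq_of_lt_left _ hlt, hmain]
  exact div_self (pow_ne_zero _ hw0.ne')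

end Fermat.Agent.TW.Flat.SSC.Levels
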