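/-
TW-FLAT, row 352 (FLAT-SSC-LEVELS), part `TwistDiff`.

`u = Σ a_i ϖ^i` (`ϖ^(p²−1) = −p`, `a_i` integral and inertia-fixed) with `u − x₀ = ϖ^m · unit`,
`1 ≤ m < p² − 1`, `p ∤ m`: replacing `ϖ` by `ϖ(1 + ϖ^s)` changes `u` by `ϖ^(m+s) · unit`.

Proof: the nonzero terms `a'_i ϖ^i` of `u − x₀` have pairwise distinct valuations
(`Loc.Tame.term_distinct`), so `a_m` is a unit and `a_i ∈ pP` for `1 ≤ i < m`; in
`Σ a_i ϖ^i ((1+b)^i − 1)`, `b = ϖ^s`, `(1+b)^i − 1 = b·g_i` with `g_i ≡ i mod b`, the term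
`i = m` has valuation exactly `v(ϖ)^(m+s)` and all others are smaller.
-/
import Mathlib
import Fermat.Agent.TW.Flat.SSC.Basic
import Fermat.Agent.TW.Flat.Local.Tame
import Fermat.Agent.TW.Flat.Local.Basic
import Fermat.Agent.Lib.Tame.RootsOfUnity

set_option autoImplicit false

namespace Fermat.Agent.TW.Flat.SSC.TwDiff

open Fermat.Agent.S53 Fermat.Agent.TW.Flat Fermat.Agent.TW.Flat.Loc

local notation "Qb" => AlgebraicClosure ℚ

section Aux

variable {p : ℕ} [hp : Fact p.Prime] {P : ValuationSubring Qb} {e : ℕ} {ϖ : Qb}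

/-- The valuation of a nonzero integral inertia-fixed element is `v(ϖ)^(e n)`, `n : ℕ`. -/
theorem val_fixed_nat (hP : P.LiesOverPrime p) (he : 0 < e) (hϖ : ϖ ^ e = -(p : Qb)) {a : Qb}
    (ha0 : a ≠ 0) (haP : a ∈ P) (ha : ∀ σ ∈ P.inertiaSubgroupIn ℚ, σ a = a) :
    ∃ n : ℕ, P.valuation a = P.valuation ϖ ^ (e * n) := by
  obtain ⟨n, hn⟩ := Tame.val_fixed hP hϖ ha0 ha
  have hw0 : 0 < P.valuation ϖ := Tame.val_pi_pos he hϖ
  have hw1 : P.valuation ϖ < 1 := Tame.val_pi_lt_one hP hϖ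
  have h1 : P.valuation ϖ ^ ((e : ℤ) * n) ≤ P.valuation ϖ ^ (0 : ℤ) := by
    rw [zpow_zero, ← hn]
    exact (P.valuation_le_one_iff a).2 haP
  have h2 : (0 : ℤ) ≤ (e : ℤ) * n := (zpow_le_zpow_iff_right_of_lt_one₀ hw0 hw1).1 h1
  have hn0 : 0 ≤ n := by
    by_contra hcon
    push Not at hcon
    have h3 : (e : ℤ) * n < 0 := mul_neg_of_pos_of_neg (by exact_mod_cast he) hcon
    omega
  refine ⟨n.toNat, ?_⟩
  rw [hn, ← zpow_natCast]
  congr 1
  push_cast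
  rw [Int.toNat_of_nonneg hn0]

/-- An integral inertia-fixed non-unit has valuation at most `v(ϖ)^e = v(p)`. -/
theorem val_le_of_fixed_of_lt_one (hP : P.LiesOverPrime p) (he : 0 < e)
    (hϖ : ϖ ^ e = -(p : Qb)) {a : Qb} (haP : a ∈ P)
    (ha : ∀ σ ∈ P.inertiaSubgroupIn ℚ, σ a = a) (hlt : P.valuation a < 1) :
    P.valuation a ≤ P.valuation ϖ ^ e := by
  have hw1 : P.valuation ϖ < 1 := Tame.val_pi_lt_one hP hϖ
  rcases eq_or_ne a 0 with rfl | ha0
  · rw [map_zero]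
    exact zero_le
  obtain ⟨n, hn⟩ := val_fixed_nat hP he hϖ ha0 haP ha
  have hn1 : 1 ≤ n := by
    by_contra hcon
    have h0 : n = 0 := by omega
    rw [h0, mul_zero, pow_zero] at hn
    rw [hn] at hlt
    exact lt_irrefl _ hlt
  rw [hn]
  exact pow_le_pow_of_le_one zero_le hw1.le (Nat.le_mul_of_pos_right e hn1)

end Aux

/-- (TWIST-DIFF) for an arbitrary exponent `e` (`ϖ^e = −p`). -/
theorem twistDiff_aux {p : ℕ} [hpF : Fact p.Prime] {P : ValuationSubring Qb}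
    (hP : P.LiesOverPrime p) {e : ℕ} (he : 0 < e) {ϖ : Qb} (hϖ : ϖ ^ e = -(p : Qb))
    (a : Fin e → Qb) (ha : ∀ i, a i ∈ P ∧ ∀ σ ∈ P.inertiaSubgroupIn ℚ, σ (a i) = a i)
    (x₀ : Qb) (hx₀P : x₀ ∈ P) (hx₀I : ∀ σ ∈ P.inertiaSubgroupIn ℚ, σ x₀ = x₀) (m s : ℕ)
    (hm1 : 1 ≤ m) (hme : m < e) (hpm : ¬ p ∣ m) (hs1 : 1 ≤ s)
    (hunit : IsPUnit P ((∑ i, a i * ϖ ^ (i : ℕ) - x₀) / ϖ ^ m)) :
    IsPUnit P ((∑ i, a i * tw ϖ s ^ (i : ℕ) - ∑ i, a i * ϖ ^ (i : ℕ)) / ϖ ^ (m + s)) := by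
  classical
  have hpr : p.Prime := hpF.out
  have hw0 : 0 < P.valuation ϖ := Tame.val_pi_pos he hϖ
  have hw1 : P.valuation ϖ < 1 := Tame.val_pi_lt_one hP hϖ
  -- modified coefficients
  let a' : Fin e → Qb := fun i => if (i : ℕ) = 0 then a i - x₀ else a i
  have ha'I : ∀ i, ∀ σ ∈ P.inertiaSubgroupIn ℚ, σ (a' i) = a' i := by
    intro i σ hσ
    show σ (if (i : ℕ) = 0 then a i - x₀ else a i) = if (i : ℕ) = 0 then a i - x₀ else a i
    split_ifs
    · rw [map_sub, (ha i).2 σ hσ, hx₀I σ hσ]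
    · exact (ha i).2 σ hσ
  have ha'P : ∀ i, a' i ∈ P := by
    intro i
    show (if (i : ℕ) = 0 then a i - x₀ else a i) ∈ P
    split_ifs
    · exact P.sub_mem (ha i).1 hx₀P
    · exact (ha i).1
  have ha'eq : ∀ i : Fin e, (i : ℕ) ≠ 0 → a' i = a i := fun i hi => if_neg hi
  have ha'0 : a' ⟨0, he⟩ = a ⟨0, he⟩ - x₀ := if_pos rfl
  have hsum' : ∑ i, a' i * ϖ ^ (i : ℕ) = ∑ i, a i * ϖ ^ (i : ℕ) - x₀ := by
    have h1 : ∑ i, (a' i * ϖ ^ (i : ℕ) - a i * ϖ ^ (i : ℕ)) = -x₀ := by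
      rw [Finset.sum_eq_single (⟨0, he⟩ : Fin e)]
      · rw [ha'0]
        show (a ⟨0, he⟩ - x₀) * ϖ ^ 0 - a ⟨0, he⟩ * ϖ ^ 0 = -x₀
        ring
      · intro i _ hi
        have hi' : (i : ℕ) ≠ 0 := fun h => hi (Fin.ext h)
        rw [ha'eq i hi', sub_self]
      · intro h
        exact absurd (Finset.mem_univ _) h
    rw [Finset.sum_sub_distrib] at h1
    linear_combination h1
  -- valuation of the sum
  have hvsum : P.valuation (∑ i, a' i * ϖ ^ (i : ℕ)) = P.valuation ϖ ^ m := by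
    have h1 := (Basic.isPUnit_iff_valuation_eq_one P _).1 hunit
    rw [map_div₀, map_pow] at h1
    rw [hsum']
    exact (div_eq_one_iff_eq (pow_ne_zero _ hw0.ne')).1 h1
  have hne : ∃ i ∈ (Finset.univ : Finset (Fin e)), a' i * ϖ ^ (i : ℕ) ≠ 0 := by
    by_contra hcon
    push Not at hcon
    rw [Finset.sum_eq_zero (fun i hi => hcon i hi), map_zero] at hvsum
    exact (pow_ne_zero _ hw0.ne') hvsum.symm
  obtain ⟨i₀, -, hi₀, hv, hmax⟩ := Tame.val_sum_eq_of_distinct P.valuation Finset.univ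
    (fun i : Fin e => a' i * ϖ ^ (i : ℕ))
    (fun i _ j _ hi hj hij => Tame.term_distinct hP he hϖ a' ha'I i j hi hj hij) hne
  rw [hvsum] at hv
  have ha'i₀ : a' i₀ ≠ 0 := left_ne_zero_of_mul hi₀
  obtain ⟨n₀, hn₀⟩ := val_fixed_nat hP he hϖ ha'i₀ (ha'P i₀) (ha'I i₀)
  have hexp : m = e * n₀ + (i₀ : ℕ) := by
    have h1 : P.valuation ϖ ^ m = P.valuation ϖ ^ (e * n₀ + (i₀ : ℕ)) := by
      rw [hv, map_mul, map_pow, hn₀, pow_add]
    exact pow_right_injective₀ hw0 hw1.ne h1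
  have hn₀0 : n₀ = 0 := by
    by_contra hcon
    have h1 : e ≤ e * n₀ := Nat.le_mul_of_pos_right e (Nat.pos_of_ne_zero hcon)
    omega
  have hi₀m : (i₀ : ℕ) = m := by
    rw [hexp, hn₀0]
    simp
  have hva : P.valuation (a i₀) = 1 := by
    rw [← ha'eq i₀ (by omega), hn₀, hn₀0, mul_zero, pow_zero]
  -- the twist
  obtain ⟨b, hb⟩ : ∃ b : Qb, b = ϖ ^ s := ⟨_, rfl⟩
  have hvb : P.valuation b = P.valuation ϖ ^ s := by rw [hb, map_pow]
  have hvb1 : P.valuation b < 1 := by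
    rw [hvb]
    exact pow_lt_one₀ zero_le hw1 (by omega)
  have h1b : P.valuation (1 + b) ≤ 1 :=
    le_trans (P.valuation.map_add _ _) (max_le (by rw [map_one]) hvb1.le)
  let g : ℕ → Qb := fun i => ∑ j ∈ Finset.range i, (1 + b) ^ j
  have hg : ∀ i, (1 + b) ^ i - 1 = b * g i := by
    intro i
    have h := geom_sum_mul (1 + b) i
    rw [add_sub_cancel_left] at h
    rw [← h, mul_comm]
  have hvg : ∀ i, P.valuation (g i) ≤ 1 := fun i =>
    Valuation.map_sum_le _ fun j _ => by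
      rw [map_pow]
      exact pow_le_one₀ zero_le h1b
  have hvgm : P.valuation (g m) = 1 := by
    have h1 : g m = (m : Qb) + ∑ j ∈ Finset.range m, ((1 + b) ^ j - 1) := by
      rw [Finset.sum_sub_distrib, Finset.sum_const, Finset.card_range, nsmul_eq_mul, mul_one]
      ring
    have h2 : P.valuation (∑ j ∈ Finset.range m, ((1 + b) ^ j - 1)) < 1 := by
      refine Valuation.map_sum_lt _ one_ne_zero fun j _ => ?_
      rw [hg, map_mul]
      calc P.valuation b * P.valuation (g j) ≤ P.valuation b * 1 := mul_le_mul' le_rfl (hvg j)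
        _ = P.valuation b := mul_one _
        _ < 1 := hvb1
    have h3 : P.valuation (m : Qb) = 1 := Fermat.Agent.Lib.Tame.val_natCast_eq_one hpr hP hpm
    rw [h1, Valuation.map_add_eq_of_lt_left _ (by rw [h3]; exact h2), h3]
  -- the difference
  have hD : ∑ i, a i * tw ϖ s ^ (i : ℕ) - ∑ i, a i * ϖ ^ (i : ℕ) =
      ∑ i : Fin e, a i * ϖ ^ (i : ℕ) * (b * g i) := by
    rw [← Finset.sum_sub_distrib]
    refine Finset.sum_congr rfl fun i _ => ?_
    rw [← hg, hb]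
    show a i * (ϖ * (1 + ϖ ^ s)) ^ (i : ℕ) - a i * ϖ ^ (i : ℕ) = _
    rw [mul_pow]
    ring
  -- valuations of the terms
  have hT₀ : P.valuation (a i₀ * ϖ ^ (i₀ : ℕ) * (b * g i₀)) = P.valuation ϖ ^ (m + s) := by
    rw [map_mul, map_mul, map_mul, map_pow, hva, hvb, hi₀m, hvgm, one_mul, mul_one, pow_add]
  have hpos : 0 < P.valuation ϖ ^ (m + s) := pow_pos hw0 _
  have hTlt : ∀ i ∈ (Finset.univ : Finset (Fin e)).erase i₀,
      P.valuation (a i * ϖ ^ (i : ℕ) * (b * g i)) < P.valuation ϖ ^ (m + s) := by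
    intro i hi
    have hne : i ≠ i₀ := (Finset.mem_erase.1 hi).1
    have hne' : (i : ℕ) ≠ m := fun h => hne (Fin.ext (h.trans hi₀m.symm))
    rcases Nat.eq_zero_or_pos (i : ℕ) with h0 | hipos
    · have hg0 : g i = 0 := by
        show ∑ j ∈ Finset.range (i : ℕ), (1 + b) ^ j = 0
        rw [h0, Finset.range_zero, Finset.sum_empty]
      rw [hg0, mul_zero, mul_zero, map_zero]
      exact hpos
    have hcore : P.valuation (a i * ϖ ^ (i : ℕ) * (b * g i)) ≤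
        P.valuation (a i) * P.valuation ϖ ^ ((i : ℕ) + s) := by
      rw [map_mul, map_mul, map_mul, map_pow, hvb, pow_add, mul_assoc]
      refine mul_le_mul' le_rfl (mul_le_mul' le_rfl ?_)
      calc P.valuation ϖ ^ s * P.valuation (g i) ≤ P.valuation ϖ ^ s * 1 :=
            mul_le_mul' le_rfl (hvg i)
        _ = P.valuation ϖ ^ s := mul_one _
    rcases lt_or_gt_of_ne hne' with hlt | hgt
    · -- `i < m`: `a i` is a non-unit
      have h1 := hmax i (Finset.mem_univ _)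
      rw [← hv, ha'eq i (by omega), map_mul, map_pow] at h1
      have hlt1 : P.valuation (a i) < 1 := by
        by_contra hcon
        have hge : 1 ≤ P.valuation (a i) := not_lt.1 hcon
        have h2 : P.valuation ϖ ^ (i : ℕ) ≤ P.valuation ϖ ^ m := by
          calc P.valuation ϖ ^ (i : ℕ) = 1 * P.valuation ϖ ^ (i : ℕ) := (one_mul _).symm
            _ ≤ P.valuation (a i) * P.valuation ϖ ^ (i : ℕ) := mul_le_mul' hge le_rfl
            _ ≤ P.valuation ϖ ^ m := h1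
        exact absurd (pow_lt_pow_right_of_lt_one₀ hw0 hw1 hlt) (not_lt.2 h2)
      have h2 := val_le_of_fixed_of_lt_one hP he hϖ (ha i).1 (ha i).2 hlt1
      calc P.valuation (a i * ϖ ^ (i : ℕ) * (b * g i))
          ≤ P.valuation (a i) * P.valuation ϖ ^ ((i : ℕ) + s) := hcore
        _ ≤ P.valuation ϖ ^ e * P.valuation ϖ ^ ((i : ℕ) + s) := mul_le_mul' h2 le_rfl
        _ = P.valuation ϖ ^ (e + ((i : ℕ) + s)) := (pow_add _ _ _).symm
        _ < P.valuation ϖ ^ (m + s) := pow_lt_pow_right_of_lt_one₀ hw0 hw1 (by omega)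
    · calc P.valuation (a i * ϖ ^ (i : ℕ) * (b * g i))
          ≤ P.valuation (a i) * P.valuation ϖ ^ ((i : ℕ) + s) := hcore
        _ ≤ 1 * P.valuation ϖ ^ ((i : ℕ) + s) :=
            mul_le_mul' ((P.valuation_le_one_iff _).2 (ha i).1) le_rfl
        _ = P.valuation ϖ ^ ((i : ℕ) + s) := one_mul _
        _ < P.valuation ϖ ^ (m + s) := pow_lt_pow_right_of_lt_one₀ hw0 hw1 (by omega)
  -- conclusion
  rw [Basic.isPUnit_iff_valuation_eq_one, hD, map_div₀, map_pow,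
    ← Finset.add_sum_erase _ _ (Finset.mem_univ i₀),
    Valuation.map_add_eq_of_lt_left _ (by
      rw [hT₀]
      exact Valuation.map_sum_lt _ hpos.ne' hTlt), hT₀]
  exact div_self hpos.ne'

/-- **(TWIST-DIFF)** -/
theorem twistDiff : TwistDiff := by
  intro p hpF P hP ϖ hϖ a ha x₀ hx₀P hx₀I m s hm1 hme hpm hs1 hunit
  exact twistDiff_aux hP (by omega) hϖ a ha x₀ hx₀P hx₀I m s hm1 hme hpm hs1 hunit

end Fermat.Agent.TW.Flat.SSC.TwDiff
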