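/-
TW-FLAT, supersingular containment: homomorphisms out of a monogenic ring.

* `exists_ringHom_of_monic` : if `ev : A[X] →+* B` is surjective, `M` is monic with `ev M = 0`,
  and no non-zero polynomial of degree `< deg M` is killed by `ev`, then every ring homomorphism
  `t : A[X] →+* C` with `t M = 0` factors through `ev`.
-/
import Mathlib

set_option autoImplicit false

namespace Fermat.Agent.TW.Flat.SSC

open Polynomial

theorem exists_ringHom_of_monic {A B C : Type*} [CommRing A] [CommRing B] [CommRing C]
    (ev : A[X] →+* B) (hev : Function.Surjective ev) (M : A[X]) (hM : M.Monic) (hevM : ev M = 0)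
    (hind : ∀ f : A[X], f.natDegree < M.natDegree → ev f = 0 → f = 0)
    (t : A[X] →+* C) (htM : t M = 0) :
    ∃ θ : B →+* C, ∀ f : A[X], θ (ev f) = t f := by
  have hker : RingHom.ker ev ≤ RingHom.ker t := by
    intro f hf
    rw [RingHom.mem_ker] at hf ⊢
    by_cases hM1 : M = 1
    · have : t f = t (f * M) := by rw [hM1, mul_one]
      rw [this, map_mul, htM, mul_zero]
    · have hdiv := Polynomial.modByMonic_add_div f M
      have hr : ev (f %ₘ M) = 0 := by
        have h1 : ev f = ev (f %ₘ M) + ev M * ev (f /ₘ M) := by
          rw [← map_mul, ← map_add, hdiv]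
        rw [hf, hevM, zero_mul, add_zero] at h1
        exact h1.symm
      have hr0 : f %ₘ M = 0 := hind _ (Polynomial.natDegree_modByMonic_lt f hM hM1) hr
      rw [hr0, zero_add] at hdiv
      rw [← hdiv, map_mul, htM, zero_mul]
  refine ⟨RingHom.liftOfSurjective ev hev ⟨t, hker⟩, fun f => ?_⟩
  exact RingHom.liftOfRightInverse_comp_apply ev _ (Function.rightInverse_surjInv hev) ⟨t, hker⟩ f

end Fermat.Agent.TW.Flat.SSC
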