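/-
TW-FLAT, supersingular containment: the abstract twist.

`R₀ ≤ R₁ ≤ R₂` subrings of an algebraically closed field `K`, all inside a valuation subring `P`;
`R₁ = R₀[ϖ]` with monic relation `M`, `R₂ = R₁[Π]` with monic relation `G` (both "free": no
non-zero polynomial of smaller degree vanishes).  If `ϖ' ∈ R₁` satisfies `M(ϖ') ≡ 0 mod d`, there
are ring homomorphisms `θ : R₁ → P/d`, `η : R₂ → P/d` with `θ(f(ϖ)) = f(ϖ')` and
`η(g(Π)) = g^θ(Π')`, where `Π' ∈ P` is a root of a monic polynomial `G'` over `R₁` lifting `G^θ`.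
-/
import Mathlib
import Fermat.Agent.TW.Flat.SSC.Pres

set_option autoImplicit false

namespace Fermat.Agent.TW.Flat.SSC

open Polynomial

variable {K : Type*} [Field K]

/-- The inclusion of a subring contained in a valuation subring. -/
def inclP (R : Subring K) (P : ValuationSubring K) (h : ∀ x ∈ R, x ∈ P) : R →+* P where
  toFun x := ⟨x.1, h x.1 x.2⟩
  map_one' := rfl
  map_mul' _ _ := rfl
  map_zero' := rfl
  map_add' _ _ := rfl

@[simp] theorem inclP_coe (R : Subring K) (P : ValuationSubring K) (h : ∀ x ∈ R, x ∈ P) (x : R) :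
    ((inclP R P h x : P) : K) = (x : K) := rfl

/-- A root of a monic polynomial with coefficients in a valuation subring lies in it. -/
theorem mem_of_monic_root (P : ValuationSubring K) (F : P[X]) (hF : F.Monic) (x : K)
    (hx : F.eval₂ P.subtype x = 0) : x ∈ P := by
  by_contra hxP
  have hv : 1 < P.valuation x := by
    rw [← not_le]
    exact fun h => hxP ((P.valuation_le_one_iff x).mp h)
  have hx0 : x ≠ 0 := fun h => hxP (h ▸ P.zero_mem)
  rw [Polynomial.eval₂_eq_sum_range] at hx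
  rw [Finset.sum_range_succ, hF.coeff_natDegree, map_one, one_mul] at hx
  have hlt : P.valuation (∑ i ∈ Finset.range F.natDegree, P.subtype (F.coeff i) * x ^ i) <
      P.valuation (x ^ F.natDegree) := by
    by_cases hN : F.natDegree = 0
    · rw [hN, Finset.range_zero, Finset.sum_empty, map_zero, pow_zero, map_one]
      exact zero_lt_one
    · refine Valuation.map_sum_lt _ ?_ fun i hi => ?_
      · rw [map_pow]; exact pow_ne_zero _ (ne_of_gt (lt_trans zero_lt_one hv))
      · rw [map_mul, map_pow, map_pow]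
        have h1 : P.valuation (P.subtype (F.coeff i)) ≤ 1 := P.valuation_le_one _
        have hi' : i < F.natDegree := Finset.mem_range.mp hi
        calc P.valuation (P.subtype (F.coeff i)) * P.valuation x ^ i
            ≤ 1 * P.valuation x ^ i := mul_le_mul_left h1 _
          _ = P.valuation x ^ i := one_mul _
          _ < P.valuation x ^ F.natDegree := pow_lt_pow_right₀ hv hi'
  have h2 : x ^ F.natDegree = -(∑ i ∈ Finset.range F.natDegree, P.subtype (F.coeff i) * x ^ i) :=
    eq_neg_of_add_eq_zero_right hx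
  rw [h2, Valuation.map_neg] at hlt
  exact lt_irrefl _ hlt

theorem exists_twist [IsAlgClosed K] (P : ValuationSubring K)
    (R₀ R₁ R₂ : Subring K) (h01 : R₀ ≤ R₁) (h12 : R₁ ≤ R₂) (h1P : ∀ x ∈ R₁, x ∈ P) (ϖ : R₁) (Pi : R₂)
    (M : R₀[X]) (hM : M.Monic) (hMϖ : M.eval₂ (Subring.inclusion h01) ϖ = 0)
    (hspan₁ : ∀ x : R₁, ∃ f : R₀[X], f.eval₂ (Subring.inclusion h01) ϖ = x)
    (hind₁ : ∀ f : R₀[X], f.natDegree < M.natDegree →
      f.eval₂ (Subring.inclusion h01) ϖ = 0 → f = 0)
    (G : R₁[X]) (hG : G.Monic) (hGPi : G.eval₂ (Subring.inclusion h12) Pi = 0)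
    (hspan₂ : ∀ x : R₂, ∃ g : R₁[X], g.eval₂ (Subring.inclusion h12) Pi = x)
    (hind₂ : ∀ g : R₁[X], g.natDegree < G.natDegree →
      g.eval₂ (Subring.inclusion h12) Pi = 0 → g = 0)
    (d : P) (ϖ' : R₁)
    (hMϖ' : inclP R₁ P h1P (M.eval₂ (Subring.inclusion h01) ϖ') ∈ Ideal.span {d}) :
    ∃ (θ : R₁ →+* (P ⧸ Ideal.span {d})) (η : R₂ →+* (P ⧸ Ideal.span {d})) (G' : R₁[X])
      (Pi' : P),
      (∀ f : R₀[X], θ (f.eval₂ (Subring.inclusion h01) ϖ) =
        Ideal.Quotient.mk _ (inclP R₁ P h1P (f.eval₂ (Subring.inclusion h01) ϖ'))) ∧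
      G'.Monic ∧ G'.natDegree = G.natDegree ∧
      (G'.map (inclP R₁ P h1P)).eval Pi' = 0 ∧
      (∀ i, Ideal.Quotient.mk (Ideal.span {d}) (inclP R₁ P h1P (G'.coeff i)) = θ (G.coeff i)) ∧
      (∀ g : R₁[X], η (g.eval₂ (Subring.inclusion h12) Pi) =
        (g.map θ).eval (Ideal.Quotient.mk _ Pi')) := by
  classical
  set Q := P ⧸ Ideal.span {d} with hQ
  let mk : P →+* Q := Ideal.Quotient.mk _
  let j₁ : R₁ →+* P := inclP R₁ P h1P
  -- θ
  obtain ⟨θ, hθ⟩ := exists_ringHom_of_monic
    (Polynomial.eval₂RingHom (Subring.inclusion h01) ϖ) hspan₁ M hM hMϖ hind₁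
    (Polynomial.eval₂RingHom ((mk.comp j₁).comp (Subring.inclusion h01)) (mk (j₁ ϖ'))) (by
      have h1 : Polynomial.eval₂RingHom ((mk.comp j₁).comp (Subring.inclusion h01)) (mk (j₁ ϖ')) M
          = mk (j₁ (M.eval₂ (Subring.inclusion h01) ϖ')) := by
        rw [Polynomial.coe_eval₂RingHom]
        exact (Polynomial.hom_eval₂ M (Subring.inclusion h01) (mk.comp j₁) ϖ').symm
      rw [h1]
      exact Ideal.Quotient.eq_zero_iff_mem.mpr hMϖ')
  have hθ' : ∀ f : R₀[X], θ (f.eval₂ (Subring.inclusion h01) ϖ) =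
      mk (j₁ (f.eval₂ (Subring.inclusion h01) ϖ')) := by
    intro f
    have := hθ f
    rw [Polynomial.coe_eval₂RingHom, Polynomial.coe_eval₂RingHom] at this
    rw [this]
    exact (Polynomial.hom_eval₂ f (Subring.inclusion h01) (mk.comp j₁) ϖ').symm
  -- lifts of the coefficients
  have hlift : ∀ a : R₁, ∃ a' : R₁, mk (j₁ a') = θ a := by
    intro a
    obtain ⟨f, hf⟩ := hspan₁ a
    exact ⟨f.eval₂ (Subring.inclusion h01) ϖ', by rw [← hf, hθ' f]⟩
  choose lift hlift' using hlift
  set N := G.natDegree with hN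
  have hN0 : N ≠ 0 := by
    intro h0
    have hG1 : G = 1 := Polynomial.eq_one_of_monic_natDegree_zero hG h0
    rw [hG1, Polynomial.eval₂_one] at hGPi
    exact one_ne_zero hGPi
  let G' : R₁[X] := X ^ N + ∑ i ∈ Finset.range N, C (lift (G.coeff i)) * X ^ i
  have hdeg_lt : (∑ i ∈ Finset.range N, C (lift (G.coeff i)) * X ^ i : R₁[X]).degree < N := by
    rw [Polynomial.degree_lt_iff_coeff_zero]
    intro m hm
    rw [Polynomial.finsetSum_coeff]
    refine Finset.sum_eq_zero fun i hi => ?_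
    rw [Polynomial.coeff_C_mul_X_pow, if_neg]
    have := Finset.mem_range.mp hi
    omega
  have hG'monic : G'.Monic := Polynomial.monic_X_pow_add hdeg_lt
  have hG'deg : G'.natDegree = N := by
    rw [Polynomial.natDegree_add_eq_left_of_degree_lt
      (by rw [Polynomial.degree_X_pow]; exact hdeg_lt), Polynomial.natDegree_X_pow]
  have hcoeff : ∀ i, mk (j₁ (G'.coeff i)) = θ (G.coeff i) := by
    intro i
    have hc : G'.coeff i = (if i = N then 1 else 0) + (if i < N then lift (G.coeff i) else 0) := by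
      simp only [G', Polynomial.coeff_add, Polynomial.coeff_X_pow, Polynomial.finsetSum_coeff,
        Polynomial.coeff_C_mul, Polynomial.coeff_X_pow, mul_ite, mul_one, mul_zero]
      congr 1
      rw [Finset.sum_ite_eq]
      simp [Finset.mem_range]
    rw [hc]
    rcases lt_trichotomy i N with h | h | h
    · rw [if_neg (ne_of_lt h), if_pos h, zero_add, hlift']
    · rw [if_pos h, if_neg (by omega), add_zero, h, hN, hG.coeff_natDegree, map_one, map_one,
        map_one]
    · rw [if_neg (ne_of_gt h), if_neg (by omega), add_zero, map_zero, map_zero,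
        Polynomial.coeff_eq_zero_of_natDegree_lt (hN ▸ h), map_zero]
  -- the root
  have hroot : ∃ x : K, (G'.map (j₁ : R₁ →+* P)).eval₂ P.subtype x = 0 := by
    have hmon : ((G'.map (j₁ : R₁ →+* P)).map P.subtype).Monic := (hG'monic.map _).map _
    have hdeg : ((G'.map (j₁ : R₁ →+* P)).map P.subtype).degree ≠ 0 := by
      rw [Polynomial.degree_eq_natDegree hmon.ne_zero, (hG'monic.map _).natDegree_map,
        hG'monic.natDegree_map, hG'deg]
      exact_mod_cast hN0
    obtain ⟨x, hx⟩ := IsAlgClosed.exists_root _ hdeg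
    exact ⟨x, by rwa [Polynomial.IsRoot.def, Polynomial.eval_map] at hx⟩
  obtain ⟨x, hx⟩ := hroot
  have hxP : x ∈ P := mem_of_monic_root P _ (hG'monic.map _) x hx
  let Pi' : P := ⟨x, hxP⟩
  have hPi' : (G'.map (j₁ : R₁ →+* P)).eval Pi' = 0 := by
    apply Subtype.ext
    have : P.subtype ((G'.map (j₁ : R₁ →+* P)).eval Pi') = 0 := by
      rw [← Polynomial.eval₂_id, Polynomial.hom_eval₂, RingHom.comp_id]
      exact hx
    exact this
  -- η
  have hmapeq : G.map θ = G'.map (mk.comp j₁) := by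
    ext i
    rw [Polynomial.coeff_map, Polynomial.coeff_map, RingHom.comp_apply, hcoeff]
  obtain ⟨η, hη⟩ := exists_ringHom_of_monic
    (Polynomial.eval₂RingHom (Subring.inclusion h12) Pi) hspan₂ G hG hGPi hind₂
    (Polynomial.eval₂RingHom θ (mk Pi')) (by
      rw [Polynomial.coe_eval₂RingHom, ← Polynomial.eval_map, hmapeq, ← Polynomial.map_map,
        Polynomial.eval_map, Polynomial.eval₂_at_apply, hPi', map_zero])
  refine ⟨θ, η, G', Pi', hθ', hG'monic, hG'deg, hPi', hcoeff, fun g => ?_⟩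
  have := hη g
  rw [Polynomial.coe_eval₂RingHom, Polynomial.coe_eval₂RingHom] at this
  rw [this, Polynomial.eval_map]

end Fermat.Agent.TW.Flat.SSC
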