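/-
TW-FLAT, row FLAT-SS-CONTAIN (339): INSTANTIATION of the assembly `ssContain_of` with the producers
that are theorems (local toolkit, level calculus, Galois theory of `c|G_F`).  After this file the
supersingular containment `SSContain k` hangs on the single named statement `TwistCore k`.

* `ssStruct_inst : Loc.SSStruct k`, `tameKum_inst : Loc.TameKum` (unconditional);
* `hData_inst : HData k`, `h90w_inst : H90W k`, `tauConj_inst : TauConj k` (unconditional);
* `ssContain_of_twistCore : TwistCore k → SSContain k`.
-/
import Mathlib
import Fermat.Agent.TW.Flat.SSC.Assembly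
import Fermat.Agent.TW.Flat.SSC.Levels
import Fermat.Agent.TW.Flat.SSC.Group
import Fermat.Agent.TW.Flat.SSStruct
import Fermat.Agent.TW.Flat.Local.Unr
import Fermat.Agent.TW.Flat.Local.CloseRoot

set_option autoImplicit false

namespace Fermat.Agent.TW.Flat.SSC.Inst

open Fermat.Agent.S53 Fermat.Agent.TW Fermat.Agent.Lib.FinFlat Fermat.Agent.TW.Flat

variable (k : Type) [Field k] [Finite k]

/-- `[SS-STRUCT]`, unconditional (finite `k`). -/
theorem ssStruct_inst : Loc.SSStruct k :=
  SSStructProof.ssStruct Loc.Basic.unr

/-- `[TAME-KUM]`, unconditional. -/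
theorem tameKum_inst : Loc.TameKum :=
  SSStructProof.tameKum Loc.Basic.unr

/-- (H-DATA), unconditional (finite `k`). -/
theorem hData_inst : HData k :=
  Group.hData (ssStruct_inst k) tameKum_inst

/-- (H90), unconditional (finite `k`). -/
theorem h90w_inst : H90W k :=
  Group.h90w (ssStruct_inst k) tameKum_inst

/-- (TAU), unconditional (finite `k`). -/
theorem tauConj_inst : TauConj k :=
  Group.tauConj (ssStruct_inst k) tameKum_inst

/-- **FLAT-SS-CONTAIN from Fontaine's twist alone**: every other input of `ssContain_of` is a
theorem. -/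
theorem ssContain_of_twistCore (hCore : TwistCore k) : SSContain k :=
  ssContain_of Loc.Tame.fVal Loc.Tame.fStruct Loc.Close.closeRoot Loc.Basic.decompMem
    Loc.Basic.inertiaRes Levels.k3 Levels.twistDiff Levels.raise (h90w_inst k) (tauConj_inst k)
    hCore

end Fermat.Agent.TW.Flat.SSC.Inst
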