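/-
TW-FLAT, supersingular containment: polynomial presentations of subrings `R ≤ R'` of a field with
`R' = ⊕_{i<N} R·x^i`.
-/
import Mathlib

set_option autoImplicit false

namespace Fermat.Agent.TW.Flat.SSC

open Polynomial

variable {K : Type*} [Field K]

theorem coe_eval₂_inclusion {R R' : Subring K} (hRR' : R ≤ R') (f : R[X]) (x : R') :
    ((f.eval₂ (Subring.inclusion hRR') x : R') : K) = f.eval₂ R.subtype (x : K) := by
  have h := Polynomial.hom_eval₂ f (Subring.inclusion hRR') R'.subtype x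
  exact h

theorem eval₂_subtype_eq_sum {R : Subring K} (f : R[X]) (x : K) (N : ℕ) (hf : f.natDegree < N) :
    f.eval₂ R.subtype x = ∑ i : Fin N, (f.coeff i : K) * x ^ (i : ℕ) := by
  rw [Polynomial.eval₂_eq_sum_range' R.subtype hf, ← Fin.sum_univ_eq_sum_range
    (fun i => R.subtype (f.coeff i) * x ^ i) N]
  rfl

/-- The polynomial with prescribed coefficients `a i ∈ R`, `i < N`. -/
noncomputable def polyOfFin (R : Subring K) (N : ℕ) (a : Fin N → K) (ha : ∀ i, a i ∈ R) : R[X] :=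
  ∑ i : Fin N, C (⟨a i, ha i⟩ : R) * X ^ (i : ℕ)

theorem polyOfFin_coeff (R : Subring K) (N : ℕ) (a : Fin N → K) (ha : ∀ i, a i ∈ R) (m : ℕ) :
    ((polyOfFin R N a ha).coeff m : K) = if h : m < N then a ⟨m, h⟩ else 0 := by
  classical
  unfold polyOfFin
  rw [Polynomial.finsetSum_coeff]
  simp only [Polynomial.coeff_C_mul_X_pow]
  split_ifs with h
  · rw [Finset.sum_eq_single (⟨m, h⟩ : Fin N)]
    · simp
    · intro b _ hb
      rw [if_neg]
      intro hm
      exact hb (Fin.ext hm.symm)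
    · intro h'
      exact absurd (Finset.mem_univ _) h'
  · rw [Finset.sum_eq_zero]
    · rfl
    · intro b _
      rw [if_neg]
      intro hm
      exact h (hm ▸ b.2)

theorem polyOfFin_degree_lt (R : Subring K) (N : ℕ) (a : Fin N → K) (ha : ∀ i, a i ∈ R) :
    (polyOfFin R N a ha).degree < N := by
  rw [Polynomial.degree_lt_iff_coeff_zero]
  intro m hm
  apply Subtype.ext
  rw [polyOfFin_coeff, dif_neg (by omega)]
  rfl

theorem polyOfFin_eval₂ (R : Subring K) (N : ℕ) (a : Fin N → K) (ha : ∀ i, a i ∈ R) (x : K) :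
    (polyOfFin R N a ha).eval₂ R.subtype x = ∑ i : Fin N, a i * x ^ (i : ℕ) := by
  unfold polyOfFin
  rw [Polynomial.eval₂_finsetSum]
  refine Finset.sum_congr rfl fun i _ => ?_
  rw [Polynomial.eval₂_mul, Polynomial.eval₂_C, Polynomial.eval₂_X_pow]
  rfl

theorem exists_monic_relation (R R' : Subring K) (hRR' : R ≤ R') (x : R') (N : ℕ) (hN : 0 < N)
    (hspan : ∀ y ∈ R', ∃ a : Fin N → K, (∀ i, a i ∈ R) ∧ y = ∑ i, a i * (x : K) ^ (i : ℕ))
    (hind : ∀ a : Fin N → K, (∀ i, a i ∈ R) → ∑ i, a i * (x : K) ^ (i : ℕ) = 0 → ∀ i, a i = 0) :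
    (∀ y : R', ∃ f : R[X], f.eval₂ (Subring.inclusion hRR') x = y) ∧
    (∀ f : R[X], f.natDegree < N → f.eval₂ (Subring.inclusion hRR') x = 0 → f = 0) ∧
    ∃ G : R[X], G.Monic ∧ G.natDegree = N ∧ G.eval₂ (Subring.inclusion hRR') x = 0 := by
  refine ⟨fun y => ?_, fun f hf h0 => ?_, ?_⟩
  · obtain ⟨a, ha, hy⟩ := hspan y y.2
    refine ⟨polyOfFin R N a ha, Subtype.ext ?_⟩
    rw [coe_eval₂_inclusion, polyOfFin_eval₂, hy]
  · have h1 : f.eval₂ R.subtype (x : K) = 0 := by
      rw [← coe_eval₂_inclusion hRR', h0]; rfl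
    rw [eval₂_subtype_eq_sum f (x : K) N hf] at h1
    have h2 := hind (fun i => (f.coeff i : K)) (fun i => (f.coeff i).2) h1
    ext m
    by_cases hm : m < N
    · exact h2 ⟨m, hm⟩
    · rw [Polynomial.coeff_eq_zero_of_natDegree_lt (by omega)]
      rfl
  · obtain ⟨a, ha, hy⟩ := hspan ((x : K) ^ N) (R'.pow_mem x.2 N)
    have hlt := polyOfFin_degree_lt R N a ha
    refine ⟨X ^ N - polyOfFin R N a ha, Polynomial.monic_X_pow_sub hlt, ?_, Subtype.ext ?_⟩
    · rw [Polynomial.natDegree_sub_eq_left_of_natDegree_lt, Polynomial.natDegree_X_pow]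
      rw [Polynomial.natDegree_X_pow]
      by_cases h0 : polyOfFin R N a ha = 0
      · rw [h0, Polynomial.natDegree_zero]; exact hN
      · exact (Polynomial.natDegree_lt_iff_degree_lt h0).mpr hlt
    · rw [coe_eval₂_inclusion, Polynomial.eval₂_sub, Polynomial.eval₂_X_pow, polyOfFin_eval₂, ← hy,
        sub_self]
      rfl

end Fermat.Agent.TW.Flat.SSC
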