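/-
TW-FLAT, supersingular containment: fixed lifts for the abstract twist of `SSC/Twist.lean`, and
the three rings `R₀ ≤ R₁ ≤ R₂` of integral elements fixed by `I`, `G_F`, `H`.
-/
import Mathlib
import Fermat.Agent.TW.Flat.SSC.Val
import Fermat.Agent.TW.Flat.SSC.Twist
import Fermat.Agent.TW.Flat.SSC.Data

set_option autoImplicit false

namespace Fermat.Agent.TW.Flat.SSC

open Polynomial

section Lift

variable {K : Type*} [Field K]

/-- Lifts of the values of `η` which are polynomial expressions in `Π'` with coefficients in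
`R₁`: they are fixed by every endomorphism fixing `R₁` and `Π'`. -/
theorem exists_lift_of_twist (P : ValuationSubring K) (R₁ R₂ : Subring K) (h12 : R₁ ≤ R₂)
    (h1P : ∀ x ∈ R₁, x ∈ P) (Pi : R₂) (d : P) (θ : R₁ →+* (P ⧸ Ideal.span {d}))
    (η : R₂ →+* (P ⧸ Ideal.span {d})) (Pi' : P)
    (hspan₂ : ∀ x : R₂, ∃ g : R₁[X], g.eval₂ (Subring.inclusion h12) Pi = x)
    (hη : ∀ g : R₁[X], η (g.eval₂ (Subring.inclusion h12) Pi) =
      (g.map θ).eval (Ideal.Quotient.mk _ Pi'))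
    (hlift : ∀ a : R₁, ∃ a' : R₁, Ideal.Quotient.mk (Ideal.span {d}) (inclP R₁ P h1P a') = θ a) :
    ∃ lam : R₂ → P, (∀ x, η x = Ideal.Quotient.mk _ (lam x)) ∧
      ∀ σ : K →+* K, (∀ a ∈ R₁, σ a = a) → σ (Pi' : K) = Pi' → ∀ x, σ (lam x : K) = lam x := by
  classical
  choose lift hlift' using hlift
  choose g hg using hspan₂
  refine ⟨fun x => ∑ i ∈ Finset.range ((g x).natDegree + 1),
    inclP R₁ P h1P (lift ((g x).coeff i)) * Pi' ^ i, fun x => ?_, fun σ hσ hσPi x => ?_⟩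
  · conv_lhs => rw [← hg x]
    rw [hη, Polynomial.eval_map, Polynomial.eval₂_eq_sum_range, map_sum]
    refine Finset.sum_congr rfl fun i _ => ?_
    rw [map_mul, map_pow, hlift']
  · have e : ((∑ i ∈ Finset.range ((g x).natDegree + 1),
        inclP R₁ P h1P (lift ((g x).coeff i)) * Pi' ^ i : P) : K) =
        ∑ i ∈ Finset.range ((g x).natDegree + 1), (lift ((g x).coeff i) : K) * (Pi' : K) ^ i := by
      have := map_sum P.subtype (fun i => inclP R₁ P h1P (lift ((g x).coeff i)) * Pi' ^ i)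
        (Finset.range ((g x).natDegree + 1))
      simpa using this
    rw [e, map_sum]
    refine Finset.sum_congr rfl fun i _ => ?_
    rw [map_mul, map_pow, hσPi, hσ _ (lift ((g x).coeff i)).2]

end Lift

section Rings

open Fermat.Agent.S53 Fermat.Agent.TW Fermat.Agent.Lib.FinFlat Fermat.Agent.TW.Flat

local notation "Qb" => AlgebraicClosure ℚ

variable {k : Type} [Field k]

theorem iFix_zero (P : ValuationSubring Qb) : IFix P 0 := fun σ _ => map_zero σ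

theorem iFix_one (P : ValuationSubring Qb) : IFix P 1 := fun σ _ => map_one σ

theorem iFix_natCast (P : ValuationSubring Qb) (n : ℕ) : IFix P (n : Qb) :=
  fun σ _ => map_natCast σ n

/-- `R₀`: the integral elements fixed by inertia. -/
def ringI (P : ValuationSubring Qb) : Subring Qb where
  carrier := {x | x ∈ P ∧ IFix P x}
  mul_mem' := fun ⟨h1, h2⟩ ⟨h3, h4⟩ => ⟨P.mul_mem _ _ h1 h3, fun σ hσ => by
    rw [map_mul, h2 σ hσ, h4 σ hσ]⟩
  one_mem' := ⟨P.one_mem, iFix_one P⟩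
  add_mem' := fun ⟨h1, h2⟩ ⟨h3, h4⟩ => ⟨P.add_mem _ _ h1 h3, fun σ hσ => by
    rw [map_add, h2 σ hσ, h4 σ hσ]⟩
  zero_mem' := ⟨P.zero_mem, iFix_zero P⟩
  neg_mem' := fun ⟨h1, h2⟩ => ⟨P.neg_mem _ h1, fun σ hσ => by rw [map_neg, h2 σ hσ]⟩

/-- `R₁`: the integral elements fixed by `G_F`. -/
def ringF (P : ValuationSubring Qb) (ϖ : Qb) : Subring Qb where
  carrier := {x | x ∈ P ∧ FFix P ϖ x}
  mul_mem' := fun ⟨h1, h2⟩ ⟨h3, h4⟩ => ⟨P.mul_mem _ _ h1 h3, h2.mul h4⟩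
  one_mem' := ⟨P.one_mem, fFix_one⟩
  add_mem' := fun ⟨h1, h2⟩ ⟨h3, h4⟩ => ⟨P.add_mem _ _ h1 h3, h2.add h4⟩
  zero_mem' := ⟨P.zero_mem, fun σ _ _ => map_zero σ⟩
  neg_mem' := fun ⟨h1, h2⟩ => ⟨P.neg_mem _ h1, h2.neg⟩

/-- `R₂`: the integral elements fixed by `H = {σ ∈ G_F | c σ = 0}`. -/
def ringH (P : ValuationSubring Qb) (ϖ : Qb) (c : GQ → Mat2 k) : Subring Qb where
  carrier := {x | x ∈ P ∧ HFix P ϖ c x}
  mul_mem' := fun ⟨h1, h2⟩ ⟨h3, h4⟩ => ⟨P.mul_mem _ _ h1 h3, h2.mul h4⟩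
  one_mem' := ⟨P.one_mem, fun σ _ _ _ => map_one σ⟩
  add_mem' := fun ⟨h1, h2⟩ ⟨h3, h4⟩ => ⟨P.add_mem _ _ h1 h3, fun σ hσ h hc => by
    rw [map_add, h2 σ hσ h hc, h4 σ hσ h hc]⟩
  zero_mem' := ⟨P.zero_mem, fun σ _ _ _ => map_zero σ⟩
  neg_mem' := fun ⟨h1, h2⟩ => ⟨P.neg_mem _ h1, fun σ hσ h hc => by rw [map_neg, h2 σ hσ h hc]⟩

theorem mem_ringI {P : ValuationSubring Qb} {x : Qb} : x ∈ ringI P ↔ x ∈ P ∧ IFix P x := Iff.rfl

theorem mem_ringF {P : ValuationSubring Qb} {ϖ x : Qb} :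
    x ∈ ringF P ϖ ↔ x ∈ P ∧ FFix P ϖ x := Iff.rfl

theorem mem_ringH {P : ValuationSubring Qb} {ϖ x : Qb} {c : GQ → Mat2 k} :
    x ∈ ringH P ϖ c ↔ x ∈ P ∧ HFix P ϖ c x := Iff.rfl

theorem ringI_le_ringF (P : ValuationSubring Qb) (ϖ : Qb) : ringI P ≤ ringF P ϖ :=
  fun _ hx => ⟨hx.1, hx.2.fFix⟩

theorem ringF_le_ringH (P : ValuationSubring Qb) (ϖ : Qb) (c : GQ → Mat2 k) :
    ringF P ϖ ≤ ringH P ϖ c :=
  fun _ hx => ⟨hx.1, hx.2.hFix⟩

end Rings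

end Fermat.Agent.TW.Flat.SSC
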